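import Mathlib
import Fermat.Prelude.Def_ModularCurve_GenusNumerics

set_option autoImplicit false

/-!
# Cosets of `Γ₀(N)` in `SL(2, ℤ)` and fixed points of the elliptic elements

`Q N := SL(2, ℤ) ⧸ Gamma0 N` (left cosets, with the left multiplication action).

* `coset_eq_iff`: `gΓ = g'Γ ↔ a c' - c a' ≡ 0 mod N` where `(a, c)`, `(a', c')` are the first
  columns of `g`, `g'`.
* `card_fixedBy_S`: the number of cosets fixed by `S` is `nuTwo N`.
* `card_fixedBy_ST`: the number of cosets fixed by `S * T` is `nuThree N`.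
-/

namespace Fermat.Agent.S24.Comb

open Matrix Matrix.SpecialLinearGroup ModularGroup CongruenceSubgroup
open scoped MatrixGroups

variable (N : ℕ)

/-- The coset space `SL(2, ℤ) ⧸ Γ₀(N)`. -/
abbrev Q : Type := SL(2, ℤ) ⧸ Gamma0 N

variable {N}

theorem det_eq_one (g : SL(2, ℤ)) : g 0 0 * g 1 1 - g 0 1 * g 1 0 = 1 := by
  have := g.2
  rw [Matrix.det_fin_two] at this
  exact this

theorem det_eq_one_zmod (g : SL(2, ℤ)) :
    ((g 0 0 : ℤ) : ZMod N) * (g 1 1 : ℤ) - (g 0 1 : ℤ) * (g 1 0 : ℤ) = 1 := by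
  have := congrArg (Int.cast : ℤ → ZMod N) (det_eq_one g)
  push_cast at this
  exact this

/-- Two elements of `SL(2, ℤ)` define the same left coset of `Γ₀(N)` iff their first columns are
proportional mod `N`. -/
theorem coset_eq_iff (g g' : SL(2, ℤ)) :
    ((g : SL(2, ℤ)) : Q N) = (g' : Q N) ↔
      ((g 0 0 * g' 1 0 - g 1 0 * g' 0 0 : ℤ) : ZMod N) = 0 := by
  rw [QuotientGroup.eq, Gamma0_mem]
  have h : (g⁻¹ * g') 1 0 = g 0 0 * g' 1 0 - g 1 0 * g' 0 0 := by
    rw [coe_mul, coe_inv, Matrix.adjugate_fin_two]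
    simp [Matrix.mul_apply, Fin.sum_univ_two]
    ring
  rw [h]

theorem smul_coset (δ g : SL(2, ℤ)) : δ • ((g : SL(2, ℤ)) : Q N) = ((δ * g : SL(2, ℤ)) : Q N) :=
  rfl

/-- The lower unipotent matrix `[[1, 0], [x, 1]]`. -/
def lowerUnip (x : ℤ) : SL(2, ℤ) := ⟨!![1, 0; x, 1], by simp [Matrix.det_fin_two_of]⟩

@[simp] theorem lowerUnip_zero_zero (x : ℤ) : lowerUnip x 0 0 = 1 := rfl
@[simp] theorem lowerUnip_one_zero (x : ℤ) : lowerUnip x 1 0 = x := rfl

theorem S_mul_zero_zero (g : SL(2, ℤ)) : (S * g) 0 0 = - g 1 0 := by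
  rw [coe_mul, coe_S]
  simp [Matrix.mul_apply, Fin.sum_univ_two]

theorem S_mul_one_zero (g : SL(2, ℤ)) : (S * g) 1 0 = g 0 0 := by
  rw [coe_mul, coe_S]
  simp [Matrix.mul_apply, Fin.sum_univ_two]

theorem ST_mul_zero_zero (g : SL(2, ℤ)) : (S * T * g) 0 0 = - g 1 0 := by
  rw [coe_mul, coe_mul, coe_S, coe_T]
  simp [Matrix.mul_apply, Fin.sum_univ_two]

theorem ST_mul_one_zero (g : SL(2, ℤ)) : (S * T * g) 1 0 = g 0 0 + g 1 0 := by
  rw [coe_mul, coe_mul, coe_S, coe_T]
  simp [Matrix.mul_apply, Fin.sum_univ_two]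

/-- `S` fixes the coset of `g` iff `a² + c² ≡ 0 mod N`. -/
theorem S_smul_eq_iff (g : SL(2, ℤ)) :
    S • ((g : SL(2, ℤ)) : Q N) = (g : Q N) ↔
      ((g 0 0 : ℤ) : ZMod N) ^ 2 + ((g 1 0 : ℤ) : ZMod N) ^ 2 = 0 := by
  rw [smul_coset, coset_eq_iff, S_mul_zero_zero, S_mul_one_zero]
  push_cast
  constructor
  · intro h
    linear_combination -h
  · intro h
    linear_combination -h

/-- `S * T` fixes the coset of `g` iff `a² + a c + c² ≡ 0 mod N`. -/
theorem ST_smul_eq_iff (g : SL(2, ℤ)) :
    (S * T) • ((g : SL(2, ℤ)) : Q N) = (g : Q N) ↔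
      ((g 0 0 : ℤ) : ZMod N) ^ 2 + ((g 0 0 : ℤ) : ZMod N) * ((g 1 0 : ℤ) : ZMod N)
        + ((g 1 0 : ℤ) : ZMod N) ^ 2 = 0 := by
  rw [smul_coset, coset_eq_iff, ST_mul_zero_zero, ST_mul_one_zero]
  push_cast
  constructor
  · intro h
    linear_combination -h
  · intro h
    linear_combination -h

/-- Fixed points of `S` on the coset space are in bijection with the square roots of `-1`
mod `N`. -/
theorem card_fixedBy_S (N : ℕ) [NeZero N] :
    Nat.card (MulAction.fixedBy (Q N) S) = ModularCurve.nuTwo N := by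
  rw [ModularCurve.nuTwo]
  symm
  let F : {x : ZMod N // x ^ 2 + 1 = 0} → MulAction.fixedBy (Q N) S := fun x =>
    ⟨((lowerUnip (x.1.val : ℤ) : SL(2, ℤ)) : Q N), by
      rw [MulAction.mem_fixedBy, S_smul_eq_iff]
      simp only [lowerUnip_zero_zero, lowerUnip_one_zero]
      push_cast
      rw [ZMod.natCast_zmod_val]
      linear_combination x.2⟩
  apply Nat.card_congr
  refine Equiv.ofBijective F ⟨?_, ?_⟩
  · intro x y hxy
    have := congrArg Subtype.val hxy
    simp only [F] at this
    rw [coset_eq_iff] at this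
    simp only [lowerUnip_zero_zero, lowerUnip_one_zero] at this
    push_cast at this
    rw [ZMod.natCast_zmod_val, ZMod.natCast_zmod_val] at this
    apply Subtype.ext
    linear_combination -this
  · rintro ⟨q, hq⟩
    induction q using QuotientGroup.induction_on with
    | H g =>
      rw [MulAction.mem_fixedBy, S_smul_eq_iff] at hq
      have hdet := det_eq_one_zmod (N := N) g
      set A : ZMod N := ((g 0 0 : ℤ) : ZMod N) with hA
      set B : ZMod N := ((g 0 1 : ℤ) : ZMod N) with hB
      set C : ZMod N := ((g 1 0 : ℤ) : ZMod N) with hC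
      set D : ZMod N := ((g 1 1 : ℤ) : ZMod N) with hD
      -- `A` is a unit
      let Ai : ZMod N := A * D ^ 2 - 2 * B * C * D - A * B ^ 2
      have hAi : A * Ai = 1 := by
        simp only [Ai]
        linear_combination (A * D - B * C + 1) * hdet - B ^ 2 * hq
      refine ⟨⟨C * Ai, ?_⟩, ?_⟩
      · linear_combination Ai ^ 2 * hq - (A * Ai + 1) * hAi
      · apply Subtype.ext
        simp only [F]
        rw [coset_eq_iff]
        simp only [lowerUnip_zero_zero, lowerUnip_one_zero]
        push_cast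
        rw [ZMod.natCast_zmod_val]
        rw [← hA, ← hC]
        linear_combination (-C) * hAi

/-- Fixed points of `S * T` on the coset space are in bijection with the roots of
`x² + x + 1` mod `N`. -/
theorem card_fixedBy_ST (N : ℕ) [NeZero N] :
    Nat.card (MulAction.fixedBy (Q N) (S * T)) = ModularCurve.nuThree N := by
  rw [ModularCurve.nuThree]
  symm
  let F : {x : ZMod N // x ^ 2 + x + 1 = 0} → MulAction.fixedBy (Q N) (S * T) := fun x =>
    ⟨((lowerUnip (x.1.val : ℤ) : SL(2, ℤ)) : Q N), by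
      rw [MulAction.mem_fixedBy, ST_smul_eq_iff]
      simp only [lowerUnip_zero_zero, lowerUnip_one_zero]
      push_cast
      rw [ZMod.natCast_zmod_val]
      linear_combination x.2⟩
  apply Nat.card_congr
  refine Equiv.ofBijective F ⟨?_, ?_⟩
  · intro x y hxy
    have := congrArg Subtype.val hxy
    simp only [F] at this
    rw [coset_eq_iff] at this
    simp only [lowerUnip_zero_zero, lowerUnip_one_zero] at this
    push_cast at this
    rw [ZMod.natCast_zmod_val, ZMod.natCast_zmod_val] at this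
    apply Subtype.ext
    linear_combination -this
  · rintro ⟨q, hq⟩
    induction q using QuotientGroup.induction_on with
    | H g =>
      rw [MulAction.mem_fixedBy, ST_smul_eq_iff] at hq
      have hdet := det_eq_one_zmod (N := N) g
      set A : ZMod N := ((g 0 0 : ℤ) : ZMod N) with hA
      set B : ZMod N := ((g 0 1 : ℤ) : ZMod N) with hB
      set C : ZMod N := ((g 1 0 : ℤ) : ZMod N) with hC
      set D : ZMod N := ((g 1 1 : ℤ) : ZMod N) with hD
      let Ai : ZMod N := A * D ^ 2 - 2 * B * C * D - A * B ^ 2 - B ^ 2 * C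
      have hAi : A * Ai = 1 := by
        simp only [Ai]
        linear_combination (A * D - B * C + 1) * hdet - B ^ 2 * hq
      refine ⟨⟨C * Ai, ?_⟩, ?_⟩
      · linear_combination Ai ^ 2 * hq - (A * Ai + 1 + C * Ai) * hAi
      · apply Subtype.ext
        simp only [F]
        rw [coset_eq_iff]
        simp only [lowerUnip_zero_zero, lowerUnip_one_zero]
        push_cast
        rw [ZMod.natCast_zmod_val]
        rw [← hA, ← hC]
        linear_combination (-C) * hAi

end Fermat.Agent.S24.Comb
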