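import Mathlib

set_option autoImplicit false

/-!
# Arithmetic core of the cusp count

Pure integer arithmetic: the solvability of the congruence describing when two cosets of `Γ₀(N)`
lie in the same `T`-orbit.
-/

namespace Fermat.Agent.S24.Comb

/-- If `(a + k c) c' - c a'` is divisible by `N` for some `k`, with `a` coprime to `c`, then
`gcd(c, N)` divides `c'`. -/
theorem gcd_dvd_of_orbit_rel {N : ℕ} {a c a' c' k : ℤ} (hac : IsCoprime a c)
    (h : (N : ℤ) ∣ (a + k * c) * c' - c * a') : ((Int.gcd c N : ℕ) : ℤ) ∣ c' := by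
  have hdN : ((Int.gcd c N : ℕ) : ℤ) ∣ (N : ℤ) := Int.gcd_dvd_right _ _
  have hdc : ((Int.gcd c N : ℕ) : ℤ) ∣ c := Int.gcd_dvd_left _ _
  have h1 : ((Int.gcd c N : ℕ) : ℤ) ∣ a * c' := by
    have h2 := hdN.trans h
    have h3 : ((Int.gcd c N : ℕ) : ℤ) ∣ c * (k * c' - a') := Dvd.dvd.mul_right hdc _
    have : a * c' = ((a + k * c) * c' - c * a') - c * (k * c' - a') := by ring
    rw [this]
    exact dvd_sub h2 h3
  have hcop : IsCoprime ((Int.gcd c N : ℕ) : ℤ) a :=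
    (hac.of_isCoprime_of_dvd_right hdc).symm
  exact hcop.dvd_of_dvd_mul_left h1

/-- Same `T`-orbit implies the same `gcd(c, N)`. -/
theorem gcd_eq_of_orbit_rel {N : ℕ} {a c a' c' k : ℤ} (hac : IsCoprime a c)
    (hac' : IsCoprime a' c')
    (h : (N : ℤ) ∣ (a + k * c) * c' - c * a') : Int.gcd c N = Int.gcd c' N := by
  have h' : (N : ℤ) ∣ (a' + (-k) * c') * c - c' * a := by
    have : (a' + (-k) * c') * c - c' * a = -((a + k * c) * c' - c * a') := by ring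
    rw [this]
    exact (dvd_neg).mpr h
  have h1 := gcd_dvd_of_orbit_rel hac h
  have h2 := gcd_dvd_of_orbit_rel hac' h'
  apply Nat.dvd_antisymm
  · have : ((Int.gcd c N : ℕ) : ℤ) ∣ ((Int.gcd c' N : ℕ) : ℤ) :=
      Int.dvd_coe_gcd h1 (Int.gcd_dvd_right _ _)
    exact Int.natCast_dvd_natCast.mp this
  · have : ((Int.gcd c' N : ℕ) : ℤ) ∣ ((Int.gcd c N : ℕ) : ℤ) :=
      Int.dvd_coe_gcd h2 (Int.gcd_dvd_right _ _)
    exact Int.natCast_dvd_natCast.mp this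

/-- The core congruence: for `c = d c₁`, `c' = d c₁'` with `c₁, c₁'` prime to `M`, the relation
`∃ k, d M ∣ (a + k c) c' - c a'` is equivalent to `gcd(d, M) ∣ a c₁' - c₁ a'`. -/
theorem orbit_rel_iff_gcd_dvd (d M : ℕ) (hd : 0 < d) (a c₁ a' c₁' : ℤ)
    (h1 : IsCoprime c₁ (M : ℤ)) (h1' : IsCoprime c₁' (M : ℤ)) :
    (∃ k : ℤ, ((d * M : ℕ) : ℤ) ∣ (a + k * (d * c₁)) * (d * c₁') - (d * c₁) * a') ↔
      ((Nat.gcd d M : ℕ) : ℤ) ∣ a * c₁' - c₁ * a' := by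
  have hd0 : (d : ℤ) ≠ 0 := by exact_mod_cast hd.ne'
  have key : ∀ k : ℤ, (a + k * (d * c₁)) * (d * c₁') - (d * c₁) * a'
      = (d : ℤ) * ((a * c₁' - c₁ * a') + k * (d * c₁ * c₁')) := by
    intro k; ring
  have hgd_d : ((Nat.gcd d M : ℕ) : ℤ) ∣ (d : ℤ) := Int.natCast_dvd_natCast.mpr (Nat.gcd_dvd_left _ _)
  have hgd_M : ((Nat.gcd d M : ℕ) : ℤ) ∣ (M : ℤ) := Int.natCast_dvd_natCast.mpr (Nat.gcd_dvd_right _ _)
  constructor
  · rintro ⟨k, hk⟩
    rw [key k] at hk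
    push_cast at hk
    have hk' : (M : ℤ) ∣ (a * c₁' - c₁ * a') + k * (d * c₁ * c₁') :=
      (mul_dvd_mul_iff_left hd0).mp hk
    have h2 := hgd_M.trans hk'
    have h3 : ((Nat.gcd d M : ℕ) : ℤ) ∣ k * (d * c₁ * c₁') :=
      Dvd.dvd.mul_left ((hgd_d.mul_right c₁).mul_right c₁') k
    exact (dvd_add_left h3).mp h2
  · rintro ⟨t, ht⟩
    -- Bezout data
    obtain ⟨u, v, huv⟩ : IsCoprime (c₁ * c₁') (M : ℤ) := h1.mul_left h1'
    have hbez : ((Nat.gcd d M : ℕ) : ℤ) = d * Nat.gcdA d M + M * Nat.gcdB d M :=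
      Nat.gcd_eq_gcd_ab d M
    set r := Nat.gcdA d M with hr
    set s := Nat.gcdB d M with hs
    refine ⟨-(t * r * u), ?_⟩
    rw [key]
    push_cast
    refine mul_dvd_mul_left _ ⟨t * (s + d * r * v), ?_⟩
    rw [ht, hbez]
    linear_combination (-(t * d * r)) * huv

end Fermat.Agent.S24.Comb
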