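import Mathlib
import Fermat.Agent.S24.Comb.Cosets
import Fermat.Agent.S24.Comb.CuspArith

set_option autoImplicit false

/-!
# `T`-orbits on `SL(2, ℤ) ⧸ Γ₀(N)`: the cusp count

The orbits of `⟨T⟩` on the coset space are classified by the invariants
`d = gcd(c, N)` and `a (c/d)⁻¹ mod gcd(d, N/d)`; hence their number is
`∑ d ∣ N, φ(gcd(d, N/d)) = cuspCount N`.
-/

namespace Fermat.Agent.S24.Comb

open Matrix Matrix.SpecialLinearGroup ModularGroup CongruenceSubgroup MulAction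
open scoped MatrixGroups

theorem T_zpow_mul_zero_zero (k : ℤ) (g : SL(2, ℤ)) :
    (T ^ k * g) 0 0 = g 0 0 + k * g 1 0 := by
  rw [coe_mul, coe_T_zpow]
  simp [Matrix.mul_apply, Fin.sum_univ_two]

theorem T_zpow_mul_one_zero (k : ℤ) (g : SL(2, ℤ)) : (T ^ k * g) 1 0 = g 1 0 := by
  rw [coe_mul, coe_T_zpow]
  simp [Matrix.mul_apply, Fin.sum_univ_two]

theorem isCoprime_col (g : SL(2, ℤ)) : IsCoprime (g 0 0) (g 1 0) :=
  ⟨g 1 1, - g 0 1, by have := det_eq_one g; linarith⟩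

variable (N : ℕ)

/-- Two cosets are in the same `⟨T⟩`-orbit iff a linear congruence is solvable. -/
theorem mem_orbit_T_iff (g g' : SL(2, ℤ)) :
    ((g' : SL(2, ℤ)) : Q N) ∈ orbit (Subgroup.zpowers T) ((g : SL(2, ℤ)) : Q N) ↔
      ∃ k : ℤ, (N : ℤ) ∣ (g 0 0 + k * g 1 0) * g' 1 0 - g 1 0 * g' 0 0 := by
  constructor
  · rintro ⟨⟨h, hh⟩, hq⟩
    obtain ⟨k, rfl⟩ := Subgroup.mem_zpowers_iff.mp hh
    refine ⟨k, ?_⟩
    have hq' : ((T ^ k * g : SL(2, ℤ)) : Q N) = (g' : Q N) := hq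
    rw [coset_eq_iff, T_zpow_mul_zero_zero, T_zpow_mul_one_zero] at hq'
    exact (ZMod.intCast_zmod_eq_zero_iff_dvd _ _).mp hq'
  · rintro ⟨k, hk⟩
    refine ⟨⟨T ^ k, Subgroup.zpow_mem_zpowers T k⟩, ?_⟩
    change ((T ^ k * g : SL(2, ℤ)) : Q N) = (g' : Q N)
    rw [coset_eq_iff, T_zpow_mul_zero_zero, T_zpow_mul_one_zero]
    exact (ZMod.intCast_zmod_eq_zero_iff_dvd _ _).mpr hk

/-- First invariant: `gcd(c, N)`. -/
def cuspD (g : SL(2, ℤ)) : ℕ := Int.gcd (g 1 0) N

/-- `gcd(d, N/d)`. -/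
def cuspG (d : ℕ) : ℕ := Nat.gcd d (N / d)

/-- Auxiliary form of the second invariant, with explicit moduli. -/
noncomputable def cuspWAux (D m : ℕ) (g : SL(2, ℤ)) : ℕ :=
  (((g 0 0 : ℤ) : ZMod m) * Ring.inverse (((g 1 0 / (D : ℤ) : ℤ)) : ZMod m)).val

/-- Second invariant: `a (c/d)⁻¹ mod gcd(d, N/d)`. -/
noncomputable def cuspW (g : SL(2, ℤ)) : ℕ :=
  cuspWAux (cuspD N g) (cuspG N (cuspD N g)) g

/-- The complete invariant of a `⟨T⟩`-orbit. -/
noncomputable def cuspInv (g : SL(2, ℤ)) : (Σ _ : ℕ, ℕ) := ⟨cuspD N g, cuspW N g⟩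

theorem isUnit_intCast_of_isCoprime {m : ℕ} {x : ℤ} (h : IsCoprime x (m : ℤ)) :
    IsUnit ((x : ℤ) : ZMod m) := by
  obtain ⟨u, v, huv⟩ := h
  have := congrArg (Int.cast : ℤ → ZMod m) huv
  push_cast at this
  rw [ZMod.natCast_self, mul_zero, add_zero] at this
  exact IsUnit.of_mul_eq_one (u : ZMod m) (by rw [mul_comm]; exact this)

theorem mul_inverse_eq_iff {R : Type*} [CommRing R] {a a' c c' : R} (hc : IsUnit c)
    (hc' : IsUnit c') :
    a * Ring.inverse c = a' * Ring.inverse c' ↔ a * c' = c * a' := by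
  constructor
  · intro h
    have : a * Ring.inverse c * (c * c') = a' * Ring.inverse c' * (c * c') := by rw [h]
    have e1 : a * Ring.inverse c * (c * c') = a * c' * (Ring.inverse c * c) := by ring
    have e2 : a' * Ring.inverse c' * (c * c') = c * a' * (Ring.inverse c' * c') := by ring
    rw [e1, e2, Ring.inverse_mul_cancel _ hc, Ring.inverse_mul_cancel _ hc', mul_one, mul_one]
      at this
    exact this
  · intro h
    have e1 : a * Ring.inverse c = a * c' * (Ring.inverse c * Ring.inverse c')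
        * (c' * Ring.inverse c') := by
      rw [Ring.mul_inverse_cancel _ hc', mul_one]
      have : a * c' * (Ring.inverse c * Ring.inverse c')
          = a * Ring.inverse c * (c' * Ring.inverse c') := by ring
      rw [this, Ring.mul_inverse_cancel _ hc', mul_one]
    rw [e1, h, Ring.mul_inverse_cancel _ hc', mul_one]
    have : c * a' * (Ring.inverse c * Ring.inverse c')
        = a' * Ring.inverse c' * (c * Ring.inverse c) := by ring
    rw [this, Ring.mul_inverse_cancel _ hc, mul_one]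

theorem cuspD_dvd (g : SL(2, ℤ)) : cuspD N g ∣ N := by
  have : ((cuspD N g : ℕ) : ℤ) ∣ (N : ℤ) := Int.gcd_dvd_right _ _
  exact Int.natCast_dvd_natCast.mp this

variable [NeZero N]

theorem cuspD_pos (g : SL(2, ℤ)) : 0 < cuspD N g :=
  Nat.pos_of_dvd_of_pos (cuspD_dvd N g) (Nat.pos_of_ne_zero (NeZero.ne N))

theorem cuspG_pos {d : ℕ} (hd : d ∣ N) : 0 < cuspG N d :=
  Nat.gcd_pos_of_pos_left _ (Nat.pos_of_dvd_of_pos hd (Nat.pos_of_ne_zero (NeZero.ne N)))

omit [NeZero N] in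
/-- `c = d * (c / d)`. -/
theorem col_eq_mul (g : SL(2, ℤ)) :
    g 1 0 = (cuspD N g : ℤ) * (g 1 0 / (cuspD N g : ℤ)) :=
  (Int.mul_ediv_cancel' (Int.gcd_dvd_left _ _)).symm

/-- `c / d` is prime to `N / d`. -/
theorem isCoprime_div (g : SL(2, ℤ)) :
    IsCoprime (g 1 0 / (cuspD N g : ℤ)) ((N / cuspD N g : ℕ) : ℤ) := by
  have hpos : 0 < Int.gcd (g 1 0) (N : ℤ) := cuspD_pos N g
  have := Int.gcd_div_gcd_div_gcd hpos
  rw [← Int.isCoprime_iff_gcd_eq_one] at this
  have e : ((N / cuspD N g : ℕ) : ℤ) = (N : ℤ) / (Int.gcd (g 1 0) (N : ℤ) : ℤ) := by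
    rw [cuspD]
    exact Int.natCast_div _ _
  rw [e]
  exact this

theorem isCoprime_div_cuspG (g : SL(2, ℤ)) :
    IsCoprime (g 1 0 / (cuspD N g : ℤ)) ((cuspG N (cuspD N g) : ℕ) : ℤ) :=
  (isCoprime_div N g).of_isCoprime_of_dvd_right
    (Int.natCast_dvd_natCast.mpr (Nat.gcd_dvd_right _ _))

omit [NeZero N] in
theorem isCoprime_zero_zero_cuspG (g : SL(2, ℤ)) :
    IsCoprime (g 0 0) ((cuspG N (cuspD N g) : ℕ) : ℤ) := by
  have h1 : ((cuspG N (cuspD N g) : ℕ) : ℤ) ∣ g 1 0 :=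
    (Int.natCast_dvd_natCast.mpr (Nat.gcd_dvd_left _ _)).trans (Int.gcd_dvd_left _ _)
  exact (isCoprime_col g).of_isCoprime_of_dvd_right h1

/-- **Classification of `⟨T⟩`-orbits**: two cosets lie in the same orbit iff they have the same
invariants. -/
theorem mem_orbit_T_iff_cuspInv (g g' : SL(2, ℤ)) :
    ((g' : SL(2, ℤ)) : Q N) ∈ orbit (Subgroup.zpowers T) ((g : SL(2, ℤ)) : Q N) ↔
      cuspInv N g = cuspInv N g' := by
  rw [mem_orbit_T_iff]
  have hiff : cuspInv N g = cuspInv N g' ↔ cuspD N g = cuspD N g' ∧ cuspW N g = cuspW N g' := by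
    simp only [cuspInv, Sigma.mk.injEq, heq_eq_eq]
  rw [hiff]
  -- the main computation, assuming equal `d`
  have main : cuspD N g = cuspD N g' →
      ((∃ k : ℤ, (N : ℤ) ∣ (g 0 0 + k * g 1 0) * g' 1 0 - g 1 0 * g' 0 0) ↔
        cuspW N g = cuspW N g') := by
    intro hd
    set d := cuspD N g with hdd
    have hdN : d ∣ N := cuspD_dvd N g
    have hdpos : 0 < d := cuspD_pos N g
    set M := N / d with hM
    have hNdM : N = d * M := (Nat.mul_div_cancel' hdN).symm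
    have hc : g 1 0 = (d : ℤ) * (g 1 0 / (d : ℤ)) := col_eq_mul N g
    have hc' : g' 1 0 = (d : ℤ) * (g' 1 0 / (d : ℤ)) := by
      have := col_eq_mul N g'
      rw [← hd] at this
      exact this
    have hcop : IsCoprime (g 1 0 / (d : ℤ)) (M : ℤ) := isCoprime_div N g
    have hcop' : IsCoprime (g' 1 0 / (d : ℤ)) (M : ℤ) := by
      have := isCoprime_div N g'
      rw [← hd] at this
      exact this
    have hcopG : IsCoprime (g 1 0 / (d : ℤ)) ((cuspG N d : ℕ) : ℤ) := isCoprime_div_cuspG N g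
    have hcopG' : IsCoprime (g' 1 0 / (d : ℤ)) ((cuspG N d : ℕ) : ℤ) := by
      have := isCoprime_div_cuspG N g'
      rw [← hd] at this
      exact this
    have step1 := orbit_rel_iff_gcd_dvd d M hdpos (g 0 0) (g 1 0 / (d : ℤ)) (g' 0 0)
      (g' 1 0 / (d : ℤ)) hcop hcop'
    rw [← hNdM, ← hc, ← hc'] at step1
    rw [step1]
    have hG : Nat.gcd d M = cuspG N d := rfl
    rw [hG]
    have : NeZero (cuspG N d) := ⟨(cuspG_pos N hdN).ne'⟩
    -- translate to `ZMod`
    have step2 : ((cuspG N d : ℕ) : ℤ) ∣ g 0 0 * (g' 1 0 / (d : ℤ)) - g 1 0 / (d : ℤ) * g' 0 0 ↔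
        ((g 0 0 : ℤ) : ZMod (cuspG N d)) * ((g' 1 0 / (d : ℤ) : ℤ) : ZMod (cuspG N d))
          = ((g 1 0 / (d : ℤ) : ℤ) : ZMod (cuspG N d)) * ((g' 0 0 : ℤ) : ZMod (cuspG N d)) := by
      rw [← ZMod.intCast_zmod_eq_zero_iff_dvd]
      push_cast
      exact sub_eq_zero
    rw [step2, ← mul_inverse_eq_iff (isUnit_intCast_of_isCoprime hcopG)
      (isUnit_intCast_of_isCoprime hcopG')]
    have hW : cuspW N g = cuspWAux d (cuspG N d) g := rfl
    have hW' : cuspW N g' = cuspWAux d (cuspG N d) g' := by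
      rw [cuspW, ← hd]
    rw [hW, hW', cuspWAux, cuspWAux]
    constructor
    · intro h
      rw [h]
    · intro h
      exact ZMod.val_injective _ h
  constructor
  · rintro ⟨k, hk⟩
    have hd : cuspD N g = cuspD N g' :=
      gcd_eq_of_orbit_rel (isCoprime_col g) (isCoprime_col g') hk
    exact ⟨hd, (main hd).mp ⟨k, hk⟩⟩
  · rintro ⟨hd, hw⟩
    exact (main hd).mpr hw


/-- The index set of cusps: pairs `(d, w)` with `d ∣ N`, `w < gcd(d, N/d)` prime to it. -/
def cuspIndex : Finset (Σ _ : ℕ, ℕ) :=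
  N.divisors.sigma fun d => (Finset.range (cuspG N d)).filter (cuspG N d).Coprime

omit [NeZero N] in
theorem card_cuspIndex : (cuspIndex N).card = ModularCurve.cuspCount N := by
  rw [cuspIndex, Finset.card_sigma, ModularCurve.cuspCount]
  refine Finset.sum_congr rfl fun d _ => ?_
  rw [Nat.totient_eq_card_coprime]
  rfl

/-- The invariant of any element lies in the index set. -/
theorem cuspInv_mem (g : SL(2, ℤ)) : cuspInv N g ∈ cuspIndex N := by
  rw [cuspIndex, cuspInv, Finset.mem_sigma]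
  refine ⟨Nat.mem_divisors.mpr ⟨cuspD_dvd N g, NeZero.ne N⟩, ?_⟩
  have hpos := cuspG_pos N (cuspD_dvd N g)
  have : NeZero (cuspG N (cuspD N g)) := ⟨hpos.ne'⟩
  rw [Finset.mem_filter, Finset.mem_range]
  have hu : IsUnit (((g 0 0 : ℤ) : ZMod (cuspG N (cuspD N g)))
      * Ring.inverse (((g 1 0 / (cuspD N g : ℤ) : ℤ)) : ZMod (cuspG N (cuspD N g)))) := by
    refine (isUnit_intCast_of_isCoprime (isCoprime_zero_zero_cuspG N g)).mul ?_
    have h2 := isUnit_intCast_of_isCoprime (isCoprime_div_cuspG N g)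
    rw [Ring.inverse_of_isUnit h2]
    exact Units.isUnit _
  refine ⟨ZMod.val_lt _, ?_⟩
  obtain ⟨u, hu'⟩ := hu
  have := ZMod.val_coe_unit_coprime u
  rw [hu'] at this
  exact this.symm

/-- Every index is the invariant of some element. -/
theorem exists_cuspInv_eq {i : Σ _ : ℕ, ℕ} (hi : i ∈ cuspIndex N) :
    ∃ g : SL(2, ℤ), cuspInv N g = i := by
  obtain ⟨d, w⟩ := i
  rw [cuspIndex, Finset.mem_sigma, Finset.mem_filter, Finset.mem_range] at hi
  obtain ⟨hd, hw, hcop⟩ := hi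
  simp only at hd hw hcop
  have hdN : d ∣ N := (Nat.mem_divisors.mp hd).1
  have hdpos : 0 < d := Nat.pos_of_dvd_of_pos hdN (Nat.pos_of_ne_zero (NeZero.ne N))
  have : NeZero d := ⟨hdpos.ne'⟩
  have hgpos := cuspG_pos N hdN
  have : NeZero (cuspG N d) := ⟨hgpos.ne'⟩
  have hgd : cuspG N d ∣ d := Nat.gcd_dvd_left _ _
  -- lift the unit `w` mod `gcd(d, N/d)` to a unit mod `d`
  let u : (ZMod (cuspG N d))ˣ := ZMod.unitOfCoprime w hcop.symm
  obtain ⟨u', hu'⟩ := ZMod.unitsMap_surjective hgd u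
  let a : ℕ := (u' : ZMod d).val
  have hacop : Nat.Coprime a d := ZMod.val_coe_unit_coprime u'
  have haw : ((a : ℕ) : ZMod (cuspG N d)) = (w : ZMod (cuspG N d)) := by
    have h1 : ((ZMod.unitsMap hgd u' : (ZMod (cuspG N d))ˣ) : ZMod (cuspG N d))
        = ZMod.cast (u' : ZMod d) := rfl
    rw [hu'] at h1
    simp only [a]
    rw [ZMod.natCast_val, ← h1]
    rfl
  obtain ⟨r, s, hrs⟩ := (Nat.isCoprime_iff_coprime.mpr hacop : IsCoprime (a : ℤ) (d : ℤ))
  let g : SL(2, ℤ) := ⟨!![(a : ℤ), -s; (d : ℤ), r], by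
    rw [Matrix.det_fin_two_of]; linarith⟩
  have hg00 : g 0 0 = (a : ℤ) := rfl
  have hg10 : g 1 0 = (d : ℤ) := rfl
  have hD : cuspD N g = d := by
    rw [cuspD, hg10, Int.gcd_natCast_natCast]
    exact Nat.gcd_eq_left hdN
  refine ⟨g, ?_⟩
  rw [cuspInv]
  have hW : cuspW N g = w := by
    rw [cuspW, hD, cuspWAux, hg00, hg10, Int.ediv_self (by exact_mod_cast hdpos.ne')]
    push_cast
    rw [Ring.inverse_one, mul_one, haw]
    exact ZMod.val_natCast_of_lt hw
  rw [hD, hW]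

/-- **The number of `⟨T⟩`-orbits on `SL(2, ℤ) ⧸ Γ₀(N)` is `cuspCount N`.** -/
theorem card_orbits_T :
    Nat.card (orbitRel.Quotient (Subgroup.zpowers T) (Q N)) = ModularCurve.cuspCount N := by
  rw [← card_cuspIndex, ← Nat.card_eq_finsetCard]
  symm
  apply Nat.card_congr
  choose rep hrep using fun i : cuspIndex N => exists_cuspInv_eq N i.2
  refine Equiv.ofBijective
    (fun i : cuspIndex N =>
      (Quotient.mk'' ((rep i : SL(2, ℤ)) : Q N) : orbitRel.Quotient (Subgroup.zpowers T) (Q N)))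
    ⟨?_, ?_⟩
  · intro i j hij
    have h1 : ((rep i : SL(2, ℤ)) : Q N) ∈ orbit (Subgroup.zpowers T) ((rep j : SL(2, ℤ)) : Q N) := by
      rw [← orbitRel_apply]
      exact Quotient.exact' hij
    rw [mem_orbit_T_iff_cuspInv, hrep, hrep] at h1
    exact Subtype.ext h1.symm
  · intro ω
    induction ω using Quotient.inductionOn' with
    | h q =>
      induction q using QuotientGroup.induction_on with
      | H g =>
        refine ⟨⟨cuspInv N g, cuspInv_mem N g⟩, ?_⟩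
        apply Quotient.sound'
        rw [orbitRel_apply, mem_orbit_T_iff_cuspInv, hrep]

end Fermat.Agent.S24.Comb
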