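import Mathlib

set_option autoImplicit false

/-!
# Counting orbits of an element acting with prime order

If `σ ^ n` acts trivially on a finite set `X` and `n` is prime, then every orbit of `⟨σ⟩` has
`1` or `n` elements and `n * #orbits = #X + (n - 1) * #Fix(σ)`.
-/

namespace Fermat.Agent.S24.Comb

open MulAction Function

variable {G X : Type*} [Group G] [MulAction G X]

open Classical in
/-- The size of an orbit of `⟨σ⟩` is `1` at a fixed point and `n` otherwise. -/
theorem card_orbit_zpowers_of_prime (σ : G) {n : ℕ} (hn : n.Prime)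
    (hσ : ∀ x : X, σ ^ n • x = x) (x : X) :
    Nat.card (orbit (Subgroup.zpowers σ) x) = if σ • x = x then 1 else n := by
  have hper : IsPeriodicPt (σ • ·) n x := by
    rw [IsPeriodicPt, IsFixedPt, smul_iterate]
    exact hσ x
  have hdvd : minimalPeriod (σ • ·) x ∣ n := hper.minimalPeriod_dvd
  have hcard : Nat.card (orbit (Subgroup.zpowers σ) x) = minimalPeriod (σ • ·) x := by
    rw [Nat.card_congr (orbitZPowersEquiv σ x), Nat.card_zmod]
  rw [hcard]
  rcases (Nat.dvd_prime hn).mp hdvd with h1 | h1
  · have : σ • x = x := by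
      have := minimalPeriod_eq_one_iff_isFixedPt.mp h1
      exact this
    rw [if_pos this, h1]
  · have : ¬ σ • x = x := by
      intro h
      have h2 : minimalPeriod (σ • ·) x = 1 := minimalPeriod_eq_one_iff_isFixedPt.mpr h
      rw [h2] at h1
      exact hn.one_lt.ne h1
    rw [if_neg this, h1]

/-- Orbit counting for an element acting with prime order `n`:
`n * #orbits = #X + (n - 1) * #Fix`. -/
theorem card_orbits_zpowers_of_prime [Finite X] (σ : G) {n : ℕ} (hn : n.Prime)
    (hσ : ∀ x : X, σ ^ n • x = x) :
    n * Nat.card (orbitRel.Quotient (Subgroup.zpowers σ) X)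
      = Nat.card X + (n - 1) * Nat.card (fixedBy X σ) := by
  classical
  have : Fintype X := Fintype.ofFinite X
  let H := Subgroup.zpowers σ
  have : Fintype (orbitRel.Quotient H X) := Fintype.ofFinite _
  -- decomposition into orbits
  have h1 : Nat.card X = ∑ ω : orbitRel.Quotient H X, Nat.card (orbit H ω.out) := by
    rw [Nat.card_congr (selfEquivSigmaOrbits H X), Nat.card_sigma]
  have h2 : ∀ ω : orbitRel.Quotient H X,
      Nat.card (orbit H ω.out) = if σ • ω.out = ω.out then 1 else n :=
    fun ω => card_orbit_zpowers_of_prime σ hn hσ ω.out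
  -- fixed points ↔ orbits of fixed type
  let P : orbitRel.Quotient H X → Prop := fun ω => σ • ω.out = ω.out
  have hfix_orbit : ∀ x : X, σ • x = x → ∀ y ∈ orbit H x, y = x := by
    intro x hx y hy
    obtain ⟨⟨h, hh⟩, rfl⟩ := hy
    obtain ⟨k, rfl⟩ := Subgroup.mem_zpowers_iff.mp hh
    change σ ^ k • x = x
    exact zpow_smul_eq_iff_minimalPeriod_dvd.mpr (by
      rw [minimalPeriod_eq_one_iff_isFixedPt.mpr hx]
      exact one_dvd _)
  have h3 : Nat.card (fixedBy X σ) = Nat.card {ω // P ω} := by
    apply Nat.card_congr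
    refine Equiv.ofBijective
      (fun x : fixedBy X σ => (⟨Quotient.mk'' x.1, ?_⟩ : {ω // P ω})) ⟨?_, ?_⟩
    · -- the representative of the orbit of a fixed point is that point
      have hout : (Quotient.mk'' x.1 : orbitRel.Quotient H X).out ∈ orbit H x.1 := by
        rw [← orbitRel_apply]
        exact Quotient.exact' (Quotient.out_eq' _)
      have := hfix_orbit x.1 x.2 _ hout
      simp only [P]
      rw [this]
      exact x.2
    · intro x y hxy
      have hq : (Quotient.mk'' x.1 : orbitRel.Quotient H X) = Quotient.mk'' y.1 :=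
        congrArg Subtype.val hxy
      have hxy' : x.1 ∈ orbit H y.1 := by
        rw [← orbitRel_apply]
        exact Quotient.exact' hq
      exact Subtype.ext (hfix_orbit y.1 y.2 _ hxy')
    · rintro ⟨ω, hω⟩
      refine ⟨⟨ω.out, hω⟩, ?_⟩
      apply Subtype.ext
      exact Quotient.out_eq' ω
  have h4 : Nat.card {ω // P ω} = (Finset.univ.filter P).card := by
    rw [Nat.card_eq_fintype_card, Fintype.card_subtype]
  have h5 : ∑ ω : orbitRel.Quotient H X, (if σ • ω.out = ω.out then 1 else n)
      = (Finset.univ.filter P).card + n * (Finset.univ.filter fun ω => ¬ P ω).card := by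
    rw [Finset.sum_ite]
    simp only [Finset.sum_const, smul_eq_mul, mul_one, P]
    ring
  have h6 : (Finset.univ.filter P).card + (Finset.univ.filter fun ω => ¬ P ω).card
      = Nat.card (orbitRel.Quotient H X) := by
    rw [Finset.card_filter_add_card_filter_not, Finset.card_univ, Nat.card_eq_fintype_card]
  rw [h1, Finset.sum_congr rfl (fun ω _ => h2 ω), h5, h3, h4, ← h6]
  obtain ⟨m, rfl⟩ : ∃ m, n = m + 1 := ⟨n - 1, by have := hn.pos; omega⟩
  simp only [Nat.add_sub_cancel]
  ring

end Fermat.Agent.S24.Comb
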