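import Mathlib
import Fermat.Agent.S24.Comb.Cosets
import Fermat.Agent.S24.Comb.OrbitCount

set_option autoImplicit false

/-!
# Orbits of the elliptic elements `S`, `S * T` on `SL(2, ℤ) ⧸ Γ₀(N)`
-/

namespace Fermat.Agent.S24.Comb

open Matrix Matrix.SpecialLinearGroup ModularGroup CongruenceSubgroup MulAction
open scoped MatrixGroups

variable {N : ℕ}

instance [NeZero N] : Finite (Q N) := Subgroup.finite_quotient_of_finiteIndex

theorem S_sq : S ^ 2 = (-1 : SL(2, ℤ)) := by decide

theorem ST_cube : (S * T) ^ 3 = (-1 : SL(2, ℤ)) := by decide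

/-- `-1` acts trivially on the coset space. -/
theorem neg_one_smul_coset (q : Q N) : (-1 : SL(2, ℤ)) • q = q := by
  induction q using QuotientGroup.induction_on with
  | H g =>
    rw [smul_coset, coset_eq_iff]
    have h1 : ((-1 : SL(2, ℤ)) * g) 0 0 = - g 0 0 := by simp
    have h2 : ((-1 : SL(2, ℤ)) * g) 1 0 = - g 1 0 := by simp
    rw [h1, h2]
    push_cast
    ring

theorem S_sq_smul (q : Q N) : S ^ 2 • q = q := by
  rw [S_sq]
  exact neg_one_smul_coset q

theorem ST_cube_smul (q : Q N) : (S * T) ^ 3 • q = q := by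
  rw [ST_cube]
  exact neg_one_smul_coset q

/-- Number of `⟨S⟩`-orbits: `2 * #orbits = #Q + ν₂`. -/
theorem two_mul_card_orbits_S (N : ℕ) [NeZero N] :
    2 * Nat.card (orbitRel.Quotient (Subgroup.zpowers S) (Q N))
      = Nat.card (Q N) + ModularCurve.nuTwo N := by
  have := card_orbits_zpowers_of_prime (X := Q N) S Nat.prime_two S_sq_smul
  rw [card_fixedBy_S] at this
  simp only [Nat.add_one_sub_one, one_mul, Nat.reduceSub] at this
  exact this

/-- Number of `⟨S * T⟩`-orbits: `3 * #orbits = #Q + 2 * ν₃`. -/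
theorem three_mul_card_orbits_ST (N : ℕ) [NeZero N] :
    3 * Nat.card (orbitRel.Quotient (Subgroup.zpowers (S * T)) (Q N))
      = Nat.card (Q N) + 2 * ModularCurve.nuThree N := by
  have := card_orbits_zpowers_of_prime (X := Q N) (S * T) Nat.prime_three ST_cube_smul
  rw [card_fixedBy_ST] at this
  simp only [Nat.reduceSub] at this
  exact this

end Fermat.Agent.S24.Comb
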