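import Mathlib
import Fermat.Prelude.Def_ModularCurve_GenusNumerics

set_option autoImplicit false

/-!
# Recursion for the Dedekind `ψ` function

`ψ(p M) = p ψ(M)` if `p ∣ M`, and `ψ(p M) = (p + 1) ψ(M)` if `p ∤ M`.
-/

namespace Fermat.Agent.S24.Comb

open ModularCurve ArithmeticFunction

/-- The squarefree indicator as an arithmetic function. -/
def sqfInd : ArithmeticFunction ℕ :=
  ⟨fun n => if Squarefree n then 1 else 0, by simp⟩

@[simp] theorem sqfInd_apply (n : ℕ) : sqfInd n = if Squarefree n then 1 else 0 := rfl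

theorem isMultiplicative_sqfInd : IsMultiplicative sqfInd := by
  refine ⟨by simp, ?_⟩
  intro m n hmn
  simp only [sqfInd_apply]
  by_cases h : Squarefree (m * n)
  · have := (Nat.squarefree_mul_iff.mp h)
    rw [if_pos h, if_pos this.2.1, if_pos this.2.2, mul_one]
  · rw [if_neg h]
    by_cases hm : Squarefree m
    · by_cases hn : Squarefree n
      · exact absurd (Nat.squarefree_mul_iff.mpr ⟨hmn, hm, hn⟩) h
      · rw [if_neg hn, mul_zero]
    · rw [if_neg hm, zero_mul]

theorem dedekindPsi_eq_mul_apply (N : ℕ) :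
    dedekindPsi N = (sqfInd * ArithmeticFunction.id) N := by
  rw [mul_apply, Nat.sum_divisorsAntidiagonal (f := fun x y => sqfInd x * ArithmeticFunction.id y),
    dedekindPsi, Finset.sum_filter]
  refine Finset.sum_congr rfl fun d _ => ?_
  by_cases h : Squarefree d <;> simp [h]

theorem dedekindPsi_mul_of_coprime {m n : ℕ} (h : m.Coprime n) :
    dedekindPsi (m * n) = dedekindPsi m * dedekindPsi n := by
  rw [dedekindPsi_eq_mul_apply, dedekindPsi_eq_mul_apply, dedekindPsi_eq_mul_apply]
  exact (isMultiplicative_sqfInd.mul isMultiplicative_id).map_mul_of_coprime h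

theorem dedekindPsi_prime {p : ℕ} (hp : p.Prime) : dedekindPsi p = p + 1 := by
  rw [dedekindPsi, hp.divisors]
  have h1 : (1 : ℕ) ≠ p := hp.one_lt.ne
  rw [Finset.filter_true_of_mem, Finset.sum_pair h1]
  · simp [Nat.div_self hp.pos]
  · intro x hx
    rcases Finset.mem_insert.mp hx with rfl | hx
    · exact squarefree_one
    · rw [Finset.mem_singleton] at hx
      subst hx
      exact hp.squarefree

/-- `ψ(p M) = (p + 1) ψ(M)` for a prime `p ∤ M`. -/
theorem dedekindPsi_prime_mul_of_not_dvd {p M : ℕ} (hp : p.Prime) (h : ¬ p ∣ M) :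
    dedekindPsi (p * M) = (p + 1) * dedekindPsi M := by
  rw [dedekindPsi_mul_of_coprime ((Nat.Prime.coprime_iff_not_dvd hp).mpr h), dedekindPsi_prime hp]

/-- `ψ(p M) = p ψ(M)` for a prime `p ∣ M`. -/
theorem dedekindPsi_prime_mul_of_dvd {p M : ℕ} (hp : p.Prime) (hM : M ≠ 0) (h : p ∣ M) :
    dedekindPsi (p * M) = p * dedekindPsi M := by
  rw [dedekindPsi, dedekindPsi]
  have hset : (p * M).divisors.filter Squarefree = M.divisors.filter Squarefree := by
    ext d
    simp only [Finset.mem_filter, Nat.mem_divisors]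
    constructor
    · rintro ⟨⟨hd, _⟩, hsq⟩
      refine ⟨⟨?_, hM⟩, hsq⟩
      have h2 : p * M ∣ M ^ 2 := by
        rw [pow_two]
        exact Nat.mul_dvd_mul_right h M
      exact (hsq.dvd_pow_iff_dvd (by norm_num)).mp (hd.trans h2)
    · rintro ⟨⟨hd, _⟩, hsq⟩
      exact ⟨⟨hd.mul_left p, Nat.mul_ne_zero hp.ne_zero hM⟩, hsq⟩
  rw [hset, Finset.mul_sum]
  refine Finset.sum_congr rfl fun d hd => ?_
  have hdM : d ∣ M := Nat.dvd_of_mem_divisors (Finset.mem_filter.mp hd).1
  exact Nat.mul_div_assoc p hdM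

end Fermat.Agent.S24.Comb
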