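import Mathlib
import Fermat.Agent.S24.Comb.Cosets
import Fermat.Agent.S24.Comb.PsiArith

set_option autoImplicit false

/-!
# The index of `Γ₀(N)` in `SL(2, ℤ)` is `ψ(N)`

By induction on `N` through `[Γ₀(M) : Γ₀(pM)] = p` if `p ∣ M` and `p + 1` otherwise.
-/

namespace Fermat.Agent.S24.Comb

open Matrix Matrix.SpecialLinearGroup ModularGroup CongruenceSubgroup ModularCurve
open scoped MatrixGroups

theorem Gamma0_mul_le (p M : ℕ) : Gamma0 (p * M) ≤ Gamma0 M := by
  intro γ hγ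
  rw [Gamma0_mem, ZMod.intCast_zmod_eq_zero_iff_dvd] at hγ ⊢
  refine Dvd.dvd.trans ?_ hγ
  push_cast
  exact Dvd.intro_left _ rfl

theorem lowerUnip_mem_Gamma0 {M : ℕ} {x : ℤ} (h : (M : ℤ) ∣ x) : lowerUnip x ∈ Gamma0 M := by
  rw [Gamma0_mem, lowerUnip_one_zero]
  exact (ZMod.intCast_zmod_eq_zero_iff_dvd _ _).mpr h

section

variable (p M : ℕ)

/-- The quotient `Γ₀(M) ⧸ Γ₀(pM)`. -/
abbrev RelQ : Type := ↥(Gamma0 M) ⧸ (Gamma0 (p * M)).subgroupOf (Gamma0 M)

variable {p M}

theorem relQ_eq_iff (γ γ' : Gamma0 M) :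
    ((γ : Gamma0 M) : RelQ p M) = (γ' : RelQ p M) ↔
      ((γ.1 0 0 * γ'.1 1 0 - γ.1 1 0 * γ'.1 0 0 : ℤ) : ZMod (p * M)) = 0 := by
  rw [QuotientGroup.eq, Subgroup.mem_subgroupOf]
  have : ((γ⁻¹ * γ' : Gamma0 M) : SL(2, ℤ)) = (γ.1)⁻¹ * γ'.1 := rfl
  rw [this, ← QuotientGroup.eq]
  exact coset_eq_iff (N := p * M) γ.1 γ'.1

theorem dvd_one_zero (γ : Gamma0 M) : (M : ℤ) ∣ γ.1 1 0 :=
  (ZMod.intCast_zmod_eq_zero_iff_dvd _ _).mp (Gamma0_mem.mp γ.2)

/-- The criterion in terms of `c₀ = c / M`. -/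
theorem relQ_eq_iff' (hM : M ≠ 0) (γ γ' : Gamma0 M) :
    ((γ : Gamma0 M) : RelQ p M) = (γ' : RelQ p M) ↔
      ((γ.1 0 0 * (γ'.1 1 0 / (M : ℤ)) - (γ.1 1 0 / (M : ℤ)) * γ'.1 0 0 : ℤ) : ZMod p) = 0 := by
  rw [relQ_eq_iff, ZMod.intCast_zmod_eq_zero_iff_dvd, ZMod.intCast_zmod_eq_zero_iff_dvd]
  have hM' : (M : ℤ) ≠ 0 := by exact_mod_cast hM
  have h1 : γ.1 1 0 = (M : ℤ) * (γ.1 1 0 / (M : ℤ)) :=
    (Int.mul_ediv_cancel' (dvd_one_zero γ)).symm
  have h2 : γ'.1 1 0 = (M : ℤ) * (γ'.1 1 0 / (M : ℤ)) :=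
    (Int.mul_ediv_cancel' (dvd_one_zero γ')).symm
  have e : γ.1 0 0 * γ'.1 1 0 - γ.1 1 0 * γ'.1 0 0
      = (γ.1 0 0 * (γ'.1 1 0 / (M : ℤ)) - (γ.1 1 0 / (M : ℤ)) * γ'.1 0 0) * (M : ℤ) := by
    conv_lhs => rw [h1, h2]
    ring
  rw [e]
  push_cast
  exact mul_dvd_mul_iff_right hM'

/-- The first column of an element of `Γ₀(M)` does not vanish in `P¹(𝔽_p)`. -/
theorem not_both_zero [Fact p.Prime] (γ : Gamma0 M)
    (ha : ((γ.1 0 0 : ℤ) : ZMod p) = 0) : ((γ.1 1 0 / (M : ℤ) : ℤ) : ZMod p) ≠ 0 := by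
  intro hc
  rw [ZMod.intCast_zmod_eq_zero_iff_dvd] at ha hc
  have h1 : γ.1 1 0 = (M : ℤ) * (γ.1 1 0 / (M : ℤ)) :=
    (Int.mul_ediv_cancel' (dvd_one_zero γ)).symm
  have hpc : (p : ℤ) ∣ γ.1 1 0 := by
    rw [h1]
    exact Dvd.dvd.mul_left hc _
  obtain ⟨u, v, huv⟩ : IsCoprime (γ.1 0 0) (γ.1 1 0) :=
    ⟨γ.1 1 1, - γ.1 0 1, by have := det_eq_one γ.1; linarith⟩
  have : (p : ℤ) ∣ 1 := by
    rw [← huv]
    exact dvd_add (Dvd.dvd.mul_left ha _) (Dvd.dvd.mul_left hpc _)
  have hp := (Fact.out : p.Prime).one_lt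
  have := Int.le_of_dvd one_pos this
  omega

theorem lowerUnip_div (hM : M ≠ 0) (t : ℤ) :
    (lowerUnip ((M : ℤ) * t)) 1 0 / (M : ℤ) = t := by
  rw [lowerUnip_one_zero]
  exact Int.mul_ediv_cancel_left _ (by exact_mod_cast hM)

/-- Case `p ∣ M`: the relative index is `p`. -/
theorem relIndex_of_dvd [Fact p.Prime] (hM : M ≠ 0) (hpM : p ∣ M) :
    (Gamma0 (p * M)).relIndex (Gamma0 M) = p := by
  have hp : p.Prime := Fact.out
  rw [Subgroup.relIndex, Subgroup.index_eq_card]
  let F : ZMod p → RelQ p M := fun t =>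
    ((⟨lowerUnip ((M : ℤ) * (t.val : ℤ)), lowerUnip_mem_Gamma0 (Dvd.intro _ rfl)⟩ : Gamma0 M) :
      RelQ p M)
  suffices hbij : Function.Bijective F by
    rw [← Nat.card_congr (Equiv.ofBijective F hbij), Nat.card_zmod]
  refine ⟨?_, ?_⟩
  · intro t t' h
    simp only [F] at h
    rw [relQ_eq_iff' hM] at h
    simp only [lowerUnip_zero_zero, lowerUnip_div hM] at h
    push_cast at h
    rw [ZMod.natCast_zmod_val, ZMod.natCast_zmod_val] at h
    linear_combination -h
  · intro x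
    induction x using QuotientGroup.induction_on with
    | H γ =>
      -- `a` is a unit mod `p`
      have ha : ((γ.1 0 0 : ℤ) : ZMod p) ≠ 0 := by
        intro ha
        apply not_both_zero γ ha
        rw [ZMod.intCast_zmod_eq_zero_iff_dvd]
        -- p ∣ M ∣ c, and c = M * c₀ ... we show p ∣ a and p ∣ c contradict coprimality directly
        exfalso
        rw [ZMod.intCast_zmod_eq_zero_iff_dvd] at ha
        have hpc : (p : ℤ) ∣ γ.1 1 0 :=
          (Int.natCast_dvd_natCast.mpr hpM).trans (dvd_one_zero γ)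
        obtain ⟨u, v, huv⟩ : IsCoprime (γ.1 0 0) (γ.1 1 0) :=
          ⟨γ.1 1 1, - γ.1 0 1, by have := det_eq_one γ.1; linarith⟩
        have : (p : ℤ) ∣ 1 := by
          rw [← huv]
          exact dvd_add (Dvd.dvd.mul_left ha _) (Dvd.dvd.mul_left hpc _)
        have := Int.le_of_dvd one_pos this
        have := hp.one_lt
        omega
      refine ⟨((γ.1 1 0 / (M : ℤ) : ℤ) : ZMod p) * ((γ.1 0 0 : ℤ) : ZMod p)⁻¹, ?_⟩
      simp only [F]
      rw [relQ_eq_iff' hM]
      simp only [lowerUnip_zero_zero, lowerUnip_div hM]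
      push_cast
      rw [ZMod.natCast_zmod_val]
      field_simp
      ring

/-- Case `p ∤ M`: the relative index is `p + 1`. -/
theorem relIndex_of_not_dvd [Fact p.Prime] (hM : M ≠ 0) (hpM : ¬ p ∣ M) :
    (Gamma0 (p * M)).relIndex (Gamma0 M) = p + 1 := by
  have hp : p.Prime := Fact.out
  rw [Subgroup.relIndex, Subgroup.index_eq_card]
  have hcard : Nat.card (Option (ZMod p)) = p + 1 := by
    rw [Nat.card_eq_fintype_card, Fintype.card_option, ZMod.card]
  -- the point at infinity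
  have hcop : IsCoprime (p : ℤ) (M : ℤ) :=
    Nat.isCoprime_iff_coprime.mpr ((Nat.Prime.coprime_iff_not_dvd hp).mpr hpM)
  obtain ⟨r, s, hrs⟩ := hcop
  let gInf : SL(2, ℤ) := ⟨!![(p : ℤ), -s; (M : ℤ), r], by
    rw [Matrix.det_fin_two_of]; linarith⟩
  have hgInf : gInf ∈ Gamma0 M := by
    rw [Gamma0_mem]
    change (((M : ℤ) : ℤ) : ZMod M) = 0
    simp
  let γInf : Gamma0 M := ⟨gInf, hgInf⟩
  have h00 : γInf.1 0 0 = (p : ℤ) := rfl
  have h10 : γInf.1 1 0 / (M : ℤ) = 1 := by
    change (M : ℤ) / (M : ℤ) = 1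
    exact Int.ediv_self (by exact_mod_cast hM)
  let F : Option (ZMod p) → RelQ p M := fun o =>
    match o with
    | none => ((γInf : Gamma0 M) : RelQ p M)
    | some t => ((⟨lowerUnip ((M : ℤ) * (t.val : ℤ)),
        lowerUnip_mem_Gamma0 (Dvd.intro _ rfl)⟩ : Gamma0 M) : RelQ p M)
  suffices hbij : Function.Bijective F by
    rw [← Nat.card_congr (Equiv.ofBijective F hbij), hcard]
  refine ⟨?_, ?_⟩
  · intro o o' h
    cases o with
    | none =>
      cases o' with
      | none => rfl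
      | some t' =>
        exfalso
        simp only [F] at h
        rw [relQ_eq_iff' hM, h00, h10] at h
        simp only [lowerUnip_zero_zero, lowerUnip_div hM] at h
        push_cast at h
        rw [ZMod.natCast_self] at h
        simp at h
    | some t =>
      cases o' with
      | none =>
        exfalso
        simp only [F] at h
        rw [relQ_eq_iff' hM, h00, h10] at h
        simp only [lowerUnip_zero_zero, lowerUnip_div hM] at h
        push_cast at h
        rw [ZMod.natCast_self] at h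
        simp at h
      | some t' =>
        simp only [F] at h
        rw [relQ_eq_iff' hM] at h
        simp only [lowerUnip_zero_zero, lowerUnip_div hM] at h
        push_cast at h
        rw [ZMod.natCast_zmod_val, ZMod.natCast_zmod_val] at h
        congr 1
        linear_combination -h
  · intro x
    induction x using QuotientGroup.induction_on with
    | H γ =>
      by_cases ha : ((γ.1 0 0 : ℤ) : ZMod p) = 0
      · refine ⟨none, ?_⟩
        simp only [F]
        rw [relQ_eq_iff' hM, h00, h10]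
        push_cast
        rw [ZMod.natCast_self, ha]
        ring
      · refine ⟨some (((γ.1 1 0 / (M : ℤ) : ℤ) : ZMod p) * ((γ.1 0 0 : ℤ) : ZMod p)⁻¹), ?_⟩
        simp only [F]
        rw [relQ_eq_iff' hM]
        simp only [lowerUnip_zero_zero, lowerUnip_div hM]
        push_cast
        rw [ZMod.natCast_zmod_val]
        field_simp
        ring

end

/-- **The index of `Γ₀(N)` is the Dedekind `ψ` function.** -/
theorem index_Gamma0 (N : ℕ) (hN : N ≠ 0) : (Gamma0 N).index = dedekindPsi N := by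
  induction N using Nat.strong_induction_on with
  | _ N ih =>
    rcases Nat.lt_or_ge 1 N with h1 | h1
    · -- N > 1
      have hp : (N.minFac).Prime := Nat.minFac_prime (by omega)
      have : Fact (N.minFac).Prime := ⟨hp⟩
      obtain ⟨M, hM⟩ : N.minFac ∣ N := Nat.minFac_dvd N
      have hM0 : M ≠ 0 := by
        rintro rfl
        simp at hM
        exact hN hM
      have hMlt : M < N := by
        have := hp.one_lt
        calc M = 1 * M := (one_mul M).symm
          _ < N.minFac * M := Nat.mul_lt_mul_of_pos_right this (Nat.pos_of_ne_zero hM0)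
          _ = N := hM.symm
      have ihM := ih M hMlt hM0
      have hmul := Subgroup.relIndex_mul_index (Gamma0_mul_le N.minFac M)
      have e1 : (Gamma0 N).index = (Gamma0 (N.minFac * M)).index := by rw [← hM]
      have e2 : dedekindPsi N = dedekindPsi (N.minFac * M) := by rw [← hM]
      rw [e1, e2, ← hmul, ihM]
      by_cases hd : N.minFac ∣ M
      · rw [relIndex_of_dvd hM0 hd, dedekindPsi_prime_mul_of_dvd hp hM0 hd]
      · rw [relIndex_of_not_dvd hM0 hd, dedekindPsi_prime_mul_of_not_dvd hp hd]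
    · -- N = 1
      have : N = 1 := by omega
      subst this
      rw [dedekindPsi_one]
      rw [Subgroup.index_eq_one]
      rw [eq_top_iff]
      intro γ _
      rw [Gamma0_mem]
      exact Subsingleton.elim _ _

theorem card_quotient_Gamma0 (N : ℕ) [NeZero N] : Nat.card (Q N) = dedekindPsi N := by
  rw [← index_Gamma0 N (NeZero.ne N), Subgroup.index_eq_card]

end Fermat.Agent.S24.Comb
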