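import Mathlib
import Fermat.Agent.S24.Comb.Index
import Fermat.Agent.S24.Comb.EllipticOrbits
import Fermat.Agent.S24.Comb.Cusps

set_option autoImplicit false

/-!
# The Riemann–Hurwitz count for `X₀(N) → X(1)`

With `ψ = [SL(2, ℤ) : Γ₀(N)]` and `o_σ` the number of `⟨σ⟩`-orbits on the coset space, the
Hurwitz sum `(ψ - o_S) + (ψ - o_{ST}) + (ψ - o_T) - 2 ψ` equals `2 * genusFormula N - 2`.
-/

namespace Fermat.Agent.S24.Comb

open ModularGroup CongruenceSubgroup MulAction ModularCurve
open scoped MatrixGroups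

variable (N : ℕ) [NeZero N]

/-- Number of orbits of `⟨S⟩`, as a rational number. -/
theorem card_orbits_S_rat :
    (Nat.card (orbitRel.Quotient (Subgroup.zpowers S) (Q N)) : ℚ)
      = ((dedekindPsi N : ℚ) + nuTwo N) / 2 := by
  have h := two_mul_card_orbits_S N
  rw [card_quotient_Gamma0] at h
  have h' : (2 : ℚ) * Nat.card (orbitRel.Quotient (Subgroup.zpowers S) (Q N))
      = (dedekindPsi N : ℚ) + nuTwo N := by exact_mod_cast h
  linarith

/-- Number of orbits of `⟨S * T⟩`, as a rational number. -/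
theorem card_orbits_ST_rat :
    (Nat.card (orbitRel.Quotient (Subgroup.zpowers (S * T)) (Q N)) : ℚ)
      = ((dedekindPsi N : ℚ) + 2 * nuThree N) / 3 := by
  have h := three_mul_card_orbits_ST N
  rw [card_quotient_Gamma0] at h
  have h' : (3 : ℚ) * Nat.card (orbitRel.Quotient (Subgroup.zpowers (S * T)) (Q N))
      = (dedekindPsi N : ℚ) + 2 * nuThree N := by exact_mod_cast h
  linarith

/-- **Riemann–Hurwitz count.** -/
theorem hurwitz_count :
    ((Nat.card (Q N) : ℚ) - Nat.card (orbitRel.Quotient (Subgroup.zpowers S) (Q N)))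
      + ((Nat.card (Q N) : ℚ) - Nat.card (orbitRel.Quotient (Subgroup.zpowers (S * T)) (Q N)))
      + ((Nat.card (Q N) : ℚ) - Nat.card (orbitRel.Quotient (Subgroup.zpowers T) (Q N)))
      - 2 * (Nat.card (Q N) : ℚ)
      = 2 * genusFormula N - 2 := by
  rw [card_orbits_S_rat, card_orbits_ST_rat, card_orbits_T, card_quotient_Gamma0, genusFormula]
  ring

end Fermat.Agent.S24.Comb
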