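import Mathlib
import Fermat.Agent.S24.Comb.EllipticOrbits

set_option autoImplicit false

/-!
# Parity of the Hurwitz count (E1)

For a permutation `σ` of a finite type `X` the sign is `(-1) ^ (#X + #orbits ⟨σ⟩)`.  Since the sign
is multiplicative, `#Q - o_{ST} - o_S - o_T` is even.
-/

namespace Fermat.Agent.S24.Comb

open MulAction Equiv.Perm

section Generic

variable {X : Type*} [Fintype X] [DecidableEq X]

omit [Fintype X] [DecidableEq X] in
/-- The orbit relation of `⟨σ⟩` acting on `X` is `SameCycle`. -/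
theorem orbitRel_zpowers_perm_iff (σ : Equiv.Perm X) (x y : X) :
    (orbitRel (Subgroup.zpowers σ) X) x y ↔ σ.SameCycle y x := by
  rw [orbitRel_apply]
  constructor
  · rintro ⟨⟨g, hg⟩, rfl⟩
    obtain ⟨k, rfl⟩ := Subgroup.mem_zpowers_iff.mp hg
    exact ⟨k, rfl⟩
  · rintro ⟨k, rfl⟩
    exact ⟨⟨σ ^ k, Subgroup.zpow_mem_zpowers σ k⟩, rfl⟩

/-- Auxiliary map from points to (cycle factor) ⊕ (fixed point). -/
noncomputable def cycleOrFixed (σ : Equiv.Perm X) (x : X) :
    (σ.cycleFactorsFinset ⊕ {x : X // σ x = x}) :=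
  if h : σ x = x then Sum.inr ⟨x, h⟩
  else Sum.inl ⟨σ.cycleOf x, cycleOf_mem_cycleFactorsFinset_iff.mpr (mem_support.mpr h)⟩

theorem cycleOrFixed_eq_iff (σ : Equiv.Perm X) (x y : X) :
    cycleOrFixed σ x = cycleOrFixed σ y ↔ σ.SameCycle y x := by
  unfold cycleOrFixed
  by_cases hx : σ x = x
  · by_cases hy : σ y = y
    · rw [dif_pos hx, dif_pos hy]
      constructor
      · intro h
        have : x = y := by simpa using h
        subst this
        exact SameCycle.refl _ _
      · rintro ⟨k, hk⟩
        have : (σ ^ k) y = y := zpow_apply_eq_self_of_apply_eq_self hy k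
        have hxy : x = y := by rw [← hk, this]
        subst hxy
        rfl
    · rw [dif_pos hx, dif_neg hy]
      constructor
      · intro h; exact absurd h (by simp)
      · intro h
        exfalso
        apply hy
        have := h.symm.apply_eq_self_iff.mp hx
        exact this
  · by_cases hy : σ y = y
    · rw [dif_neg hx, dif_pos hy]
      constructor
      · intro h; exact absurd h (by simp)
      · intro h
        exfalso
        apply hx
        exact h.apply_eq_self_iff.mp hy
    · rw [dif_neg hx, dif_neg hy]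
      constructor
      · intro h
        have h' : σ.cycleOf x = σ.cycleOf y := by simpa using h
        have hxs : x ∈ (σ.cycleOf x).support := by
          rw [mem_support_cycleOf_iff]
          exact ⟨SameCycle.refl _ _, mem_support.mpr hx⟩
        rw [h', mem_support_cycleOf_iff] at hxs
        exact hxs.1
      · intro h
        have : σ.cycleOf y = σ.cycleOf x := h.cycleOf_eq
        simp [this]

theorem cycleOrFixed_surjective (σ : Equiv.Perm X) : Function.Surjective (cycleOrFixed σ) := by
  rintro (⟨c, hc⟩ | ⟨x, hx⟩)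
  · obtain ⟨hcyc, hcσ⟩ := mem_cycleFactorsFinset_iff.mp hc
    obtain ⟨a, ha, -⟩ := hcyc
    have has : a ∈ c.support := mem_support.mpr ha
    have hσa : σ a ≠ a := by rw [← hcσ a has]; exact ha
    refine ⟨a, ?_⟩
    unfold cycleOrFixed
    rw [dif_neg hσa]
    congr 1
    apply Subtype.ext
    exact (cycle_is_cycleOf has hc).symm
  · refine ⟨x, ?_⟩
    unfold cycleOrFixed
    rw [dif_pos hx]

/-- Orbits of `⟨σ⟩` correspond to cycle factors and fixed points. -/
theorem card_orbits_perm (σ : Equiv.Perm X) :
    Nat.card (orbitRel.Quotient (Subgroup.zpowers σ) X)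
      = σ.cycleFactorsFinset.card + Fintype.card {x : X // σ x = x} := by
  have e : orbitRel.Quotient (Subgroup.zpowers σ) X ≃ (σ.cycleFactorsFinset ⊕ {x : X // σ x = x}) := by
    refine Equiv.ofBijective
      (Quotient.lift (cycleOrFixed σ) (fun a b h => ?_)) ⟨?_, ?_⟩
    · exact (cycleOrFixed_eq_iff σ a b).mpr ((orbitRel_zpowers_perm_iff σ a b).mp h)
    · intro a b
      induction a using Quotient.inductionOn with | _ a => ?_
      induction b using Quotient.inductionOn with | _ b => ?_
      intro h
      apply Quotient.sound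
      exact (orbitRel_zpowers_perm_iff σ a b).mpr ((cycleOrFixed_eq_iff σ a b).mp h)
    · intro y
      obtain ⟨x, hx⟩ := cycleOrFixed_surjective σ y
      exact ⟨Quotient.mk _ x, hx⟩
  rw [Nat.card_congr e, Nat.card_eq_fintype_card, Fintype.card_sum, Fintype.card_coe]

theorem card_fixed_add_card_support (σ : Equiv.Perm X) :
    Fintype.card {x : X // σ x = x} + σ.support.card = Fintype.card X := by
  rw [Fintype.card_subtype]
  have := Finset.card_filter_add_card_filter_not (s := (Finset.univ : Finset X))
    (fun x => σ x = x)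
  rw [Finset.card_univ] at this
  rw [← this]
  congr 2

/-- `sign σ = (-1) ^ (#X + #orbits ⟨σ⟩)`. -/
theorem sign_eq_neg_one_pow_card_orbits (σ : Equiv.Perm X) :
    Equiv.Perm.sign σ
      = (-1) ^ (Fintype.card X + Nat.card (orbitRel.Quotient (Subgroup.zpowers σ) X)) := by
  rw [sign_of_cycleType, card_orbits_perm, sum_cycleType, cycleType_def, Multiset.card_map,
    ← card_fixed_add_card_support σ]
  have hcf : Multiset.card σ.cycleFactorsFinset.val = σ.cycleFactorsFinset.card := rfl
  rw [hcf]
  set a := σ.support.card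
  set b := σ.cycleFactorsFinset.card
  set c := Fintype.card {x : X // σ x = x}
  have : c + a + (b + c) = (a + b) + 2 * c := by ring
  rw [this, pow_add (-1 : ℤˣ) (a + b) (2 * c), pow_mul]
  simp

end Generic

section Action

variable {G X : Type*} [Group G] [MulAction G X] [Finite X]

omit [Finite X] in
theorem toPerm_zpow_eq (g : G) (k : ℤ) :
    (MulAction.toPerm g : Equiv.Perm X) ^ k = MulAction.toPerm (g ^ k) :=
  (map_zpow (MulAction.toPermHom G X) g k).symm

omit [Finite X] in
/-- Orbits of `⟨g⟩` and of `⟨toPerm g⟩` agree. -/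
theorem card_orbits_toPerm (g : G) :
    Nat.card (orbitRel.Quotient (Subgroup.zpowers (MulAction.toPerm g : Equiv.Perm X)) X)
      = Nat.card (orbitRel.Quotient (Subgroup.zpowers g) X) := by
  refine Nat.card_congr (Quotient.congr (Equiv.refl X) (fun a b => ?_))
  change (orbitRel _ X) a b ↔ (orbitRel _ X) a b
  rw [orbitRel_apply, orbitRel_apply]
  constructor
  · rintro ⟨⟨s, hs⟩, rfl⟩
    obtain ⟨k, rfl⟩ := Subgroup.mem_zpowers_iff.mp hs
    refine ⟨⟨g ^ k, Subgroup.zpow_mem_zpowers g k⟩, ?_⟩
    change g ^ k • b = ((MulAction.toPerm g : Equiv.Perm X) ^ k) b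
    rw [toPerm_zpow_eq]
    rfl
  · rintro ⟨⟨s, hs⟩, rfl⟩
    obtain ⟨k, rfl⟩ := Subgroup.mem_zpowers_iff.mp hs
    refine ⟨⟨(MulAction.toPerm g : Equiv.Perm X) ^ k, Subgroup.zpow_mem_zpowers _ k⟩, ?_⟩
    change ((MulAction.toPerm g : Equiv.Perm X) ^ k) b = g ^ k • b
    rw [toPerm_zpow_eq]
    rfl

/-- **Parity.** For `g h : G` acting on a finite set, the three "ramification numbers"
`#X - o_g`, `#X - o_h`, `#X - o_{gh}` have even sum. -/
theorem even_card_add_orbits (g h : G) :
    Even (Nat.card X + Nat.card (orbitRel.Quotient (Subgroup.zpowers (g * h)) X)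
      + (Nat.card X + Nat.card (orbitRel.Quotient (Subgroup.zpowers g) X))
      + (Nat.card X + Nat.card (orbitRel.Quotient (Subgroup.zpowers h) X))) := by
  classical
  have : Fintype X := Fintype.ofFinite X
  have hmul : Equiv.Perm.sign (MulAction.toPerm (g * h) : Equiv.Perm X)
      = Equiv.Perm.sign (MulAction.toPerm g : Equiv.Perm X)
        * Equiv.Perm.sign (MulAction.toPerm h : Equiv.Perm X) := by
    rw [← map_mul]
    congr 1
    ext x
    simp [mul_smul]
  rw [sign_eq_neg_one_pow_card_orbits, sign_eq_neg_one_pow_card_orbits,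
    sign_eq_neg_one_pow_card_orbits, card_orbits_toPerm, card_orbits_toPerm, card_orbits_toPerm,
    ← Nat.card_eq_fintype_card, ← pow_add] at hmul
  set a := Nat.card X + Nat.card (orbitRel.Quotient (Subgroup.zpowers (g * h)) X)
  set b := Nat.card X + Nat.card (orbitRel.Quotient (Subgroup.zpowers g) X)
  set c := Nat.card X + Nat.card (orbitRel.Quotient (Subgroup.zpowers h) X)
  have h1 : ((-1 : ℤˣ)) ^ (a + (b + c)) = 1 := by
    rw [pow_add, hmul, ← pow_add, ← two_mul, pow_mul]
    simp
  have hne : (-1 : ℤˣ) ≠ 1 := by decide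
  have := (neg_one_pow_eq_one_iff_even hne).mp h1
  rwa [← add_assoc] at this

end Action

open ModularGroup CongruenceSubgroup
open scoped MatrixGroups

/-- **E1.** The Hurwitz count `#Q - o_{ST} - o_S - o_T` is even. -/
theorem even_total (N : ℕ) [NeZero N] :
    Even ((Nat.card (Q N) : ℤ)
      - Nat.card (orbitRel.Quotient (Subgroup.zpowers (S * T)) (Q N))
      - Nat.card (orbitRel.Quotient (Subgroup.zpowers S) (Q N))
      - Nat.card (orbitRel.Quotient (Subgroup.zpowers T) (Q N))) := by
  have h := even_card_add_orbits (X := Q N) S T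
  obtain ⟨r, hr⟩ := h
  have hr' : ((Nat.card (Q N) : ℤ) + Nat.card (orbitRel.Quotient (Subgroup.zpowers (S * T)) (Q N))
      + ((Nat.card (Q N) : ℤ) + Nat.card (orbitRel.Quotient (Subgroup.zpowers S) (Q N)))
      + ((Nat.card (Q N) : ℤ) + Nat.card (orbitRel.Quotient (Subgroup.zpowers T) (Q N))))
      = (r : ℤ) + r := by exact_mod_cast hr
  refine ⟨(r : ℤ) - Nat.card (Q N)
      - Nat.card (orbitRel.Quotient (Subgroup.zpowers (S * T)) (Q N))
      - Nat.card (orbitRel.Quotient (Subgroup.zpowers S) (Q N))
      - Nat.card (orbitRel.Quotient (Subgroup.zpowers T) (Q N)), ?_⟩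
  linarith

end Fermat.Agent.S24.Comb
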