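import Mathlib
import Fermat.Agent.S24.Comb.Parity

set_option autoImplicit false

/-!
# Transport of orbit counts (An7, combinatorial half)

Invariance of the number of `⟨g⟩`-orbits under inversion and conjugation of `g`, and the
passage `g ↦ MulAction.toPerm g` (the latter is `card_orbits_toPerm` in `Parity.lean`).
-/

namespace Fermat.Agent.S24.Comb

open MulAction

variable {G X : Type*} [Group G] [MulAction G X]

/-- `⟨g⁻¹⟩` and `⟨g⟩` have the same orbits. -/
theorem card_orbits_inv (g : G) :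
    Nat.card (orbitRel.Quotient (Subgroup.zpowers g⁻¹) X)
      = Nat.card (orbitRel.Quotient (Subgroup.zpowers g) X) := by
  rw [Subgroup.zpowers_inv]

/-- `⟨h g h⁻¹⟩` and `⟨g⟩` have the same number of orbits (via `x ↦ h⁻¹ • x`). -/
theorem card_orbits_conj (g h : G) :
    Nat.card (orbitRel.Quotient (Subgroup.zpowers (h * g * h⁻¹)) X)
      = Nat.card (orbitRel.Quotient (Subgroup.zpowers g) X) := by
  refine Nat.card_congr (Quotient.congr (MulAction.toPerm h⁻¹) (fun a b => ?_))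
  change (orbitRel _ X) a b ↔ (orbitRel _ X) (h⁻¹ • a) (h⁻¹ • b)
  rw [orbitRel_apply, orbitRel_apply]
  constructor
  · rintro ⟨⟨s, hs⟩, rfl⟩
    obtain ⟨k, rfl⟩ := Subgroup.mem_zpowers_iff.mp hs
    refine ⟨⟨g ^ k, Subgroup.zpow_mem_zpowers g k⟩, ?_⟩
    change g ^ k • h⁻¹ • b = h⁻¹ • (h * g * h⁻¹) ^ k • b
    rw [conj_zpow]
    simp [mul_smul]
  · rintro ⟨⟨s, hs⟩, hsb⟩
    obtain ⟨k, rfl⟩ := Subgroup.mem_zpowers_iff.mp hs
    refine ⟨⟨(h * g * h⁻¹) ^ k, Subgroup.zpow_mem_zpowers _ k⟩, ?_⟩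
    change (h * g * h⁻¹) ^ k • b = a
    have hsb' : g ^ k • h⁻¹ • b = h⁻¹ • a := hsb
    rw [conj_zpow]
    calc (h * g ^ k * h⁻¹) • b = h • (g ^ k • h⁻¹ • b) := by simp [mul_smul]
      _ = h • h⁻¹ • a := by rw [hsb']
      _ = a := by simp

/-- Orbits of the permutation `toPerm g` or its inverse: the form consumed after Lemma A. -/
theorem card_orbits_toPerm_inv (g : G) :
    Nat.card (orbitRel.Quotient (Subgroup.zpowers (MulAction.toPerm g⁻¹ : Equiv.Perm X)) X)
      = Nat.card (orbitRel.Quotient (Subgroup.zpowers g) X) := by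
  rw [card_orbits_toPerm, card_orbits_inv]

end Fermat.Agent.S24.Comb
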