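/-
S24 helper library (helper3): the genus inequality for a transitive pair of permutations
(Ree / Jacques): `z α + z β + z (α β) ≤ n + 2`, where `z σ` is the number of cycles (orbits)
of `σ`.  Proof by linear algebra on the permutation module `X → ℚ`.
-/
import Mathlib

set_option autoImplicit false
set_option linter.unusedSectionVars false

namespace Fermat.Agent.S24.Comb

open Module

variable {X : Type*}

/-- Number of orbits (cycles, including fixed points) of a permutation. -/
noncomputable def cs_z (σ : Equiv.Perm X) : ℕ :=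
  Nat.card (MulAction.orbitRel.Quotient (Subgroup.zpowers σ) X)

/-- The subgroup of permutations preserving a function. -/
def cs_stab {Y : Type*} (f : X → Y) : Subgroup (Equiv.Perm X) where
  carrier := {g | ∀ x, f (g x) = f x}
  mul_mem' := by
    intro a b ha hb x
    rw [Equiv.Perm.mul_apply, ha, hb]
  one_mem' := fun _ => rfl
  inv_mem' := by
    intro a ha x
    have := ha (a⁻¹ x)
    simp only [Equiv.Perm.coe_inv, Equiv.apply_symm_apply] at this
    simpa using this.symm

theorem cs_mem_stab {Y : Type*} {f : X → Y} {g : Equiv.Perm X} :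
    g ∈ cs_stab f ↔ ∀ x, f (g x) = f x := Iff.rfl

variable [Fintype X] [DecidableEq X] (k : Type*) [Field k]

/-- `1 - σ^*` on the permutation module `X → k`. -/
noncomputable def cs_A (σ : Equiv.Perm X) : (X → k) →ₗ[k] (X → k) :=
  LinearMap.id - LinearMap.funLeft k k σ

theorem cs_A_apply (σ : Equiv.Perm X) (f : X → k) (x : X) : cs_A k σ f x = f x - f (σ x) := rfl

variable {k}

theorem cs_mem_ker_A {σ : Equiv.Perm X} {f : X → k} :
    f ∈ LinearMap.ker (cs_A k σ) ↔ ∀ x, f (σ x) = f x := by
  rw [LinearMap.mem_ker]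
  constructor
  · intro h x
    have := congrFun h x
    rw [cs_A_apply] at this
    simp only [Pi.zero_apply] at this
    exact (sub_eq_zero.mp this).symm
  · intro h
    ext x
    rw [cs_A_apply, h x]
    simp

theorem cs_mem_ker_A_iff_stab {σ : Equiv.Perm X} {f : X → k} :
    f ∈ LinearMap.ker (cs_A k σ) ↔ σ ∈ cs_stab f := cs_mem_ker_A

variable (k)

/-- Invariant functions are functions on the orbit space. -/
noncomputable def cs_kerEquiv (σ : Equiv.Perm X) :
    LinearMap.ker (cs_A k σ) ≃ₗ[k] (MulAction.orbitRel.Quotient (Subgroup.zpowers σ) X → k) where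
  toFun f := fun ω => Quotient.liftOn' ω f.1 (fun a b hab => by
    obtain ⟨⟨g, hg⟩, rfl⟩ := MulAction.orbitRel_apply.mp hab
    have hle : Subgroup.zpowers σ ≤ cs_stab f.1 :=
      (Subgroup.zpowers_le).mpr (cs_mem_ker_A_iff_stab.mp f.2)
    exact hle hg b)
  map_add' := by
    intro f g
    ext ω
    induction ω using Quotient.inductionOn' with
    | h x => rfl
  map_smul' := by
    intro c f
    ext ω
    induction ω using Quotient.inductionOn' with
    | h x => rfl
  invFun g := ⟨fun x => g (Quotient.mk'' x), by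
    rw [cs_mem_ker_A]
    intro x
    congr 1
    apply Quotient.sound'
    exact MulAction.orbitRel_apply.mpr ⟨⟨σ, Subgroup.mem_zpowers σ⟩, rfl⟩⟩
  left_inv := by
    intro f
    ext x
    rfl
  right_inv := by
    intro g
    ext ω
    induction ω using Quotient.inductionOn' with
    | h x => rfl

/-- The dimension of the space of `σ`-invariant functions is the number of orbits of `σ`. -/
theorem cs_finrank_ker_A (σ : Equiv.Perm X) :
    finrank k (LinearMap.ker (cs_A k σ)) = cs_z σ := by
  classical
  have : Fintype (MulAction.orbitRel.Quotient (Subgroup.zpowers σ) X) := Fintype.ofFinite _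
  rw [(cs_kerEquiv k σ).finrank_eq, Module.finrank_fintype_fun_eq_card, cs_z,
    Nat.card_eq_fintype_card]

theorem cs_finrank_range_A (σ : Equiv.Perm X) :
    finrank k (LinearMap.range (cs_A k σ)) + cs_z σ = Fintype.card X := by
  rw [← cs_finrank_ker_A k, LinearMap.finrank_range_add_finrank_ker, Module.finrank_fintype_fun_eq_card]

theorem cs_funLeft_single (σ : Equiv.Perm X) (x : X) :
    LinearMap.funLeft k k σ (Pi.single x (1 : k)) = Pi.single (σ⁻¹ x) 1 := by
  ext y
  rw [LinearMap.funLeft_apply, Pi.single_apply, Pi.single_apply]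
  have : σ y = x ↔ y = σ⁻¹ x := by
    constructor
    · intro h; rw [← h]; simp
    · intro h; rw [h]; simp
  simp only [this]

theorem cs_A_single (σ : Equiv.Perm X) (x : X) :
    cs_A k σ (Pi.single x (1 : k)) = Pi.single x 1 - Pi.single (σ⁻¹ x) 1 := by
  rw [cs_A, LinearMap.sub_apply, LinearMap.id_apply, cs_funLeft_single]

/-- Functions invariant under `α` and `β` are constant when `⟨α, β⟩` is transitive. -/
theorem cs_const_of_invariant {Y : Type*} {α β : Equiv.Perm X}
    (hT : ∀ x y : X, ∃ g ∈ Subgroup.closure ({α, β} : Set (Equiv.Perm X)), g x = y)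
    (f : X → Y) (hα : α ∈ cs_stab f) (hβ : β ∈ cs_stab f) (x y : X) : f x = f y := by
  have hle : Subgroup.closure ({α, β} : Set (Equiv.Perm X)) ≤ cs_stab f := by
    rw [Subgroup.closure_le]
    intro g hg
    rcases hg with rfl | rfl
    · exact hα
    · exact hβ
  obtain ⟨g, hg, rfl⟩ := hT x y
  exact (hle hg x).symm

section linalg

variable {K V U W : Type*} [Field K] [AddCommGroup V] [Module K V] [AddCommGroup U] [Module K U]
  [AddCommGroup W] [Module K W]

/-- `dim ker (g ∘ f) ≤ dim ker f + dim ker g`. -/
theorem cs_finrank_ker_comp_le [FiniteDimensional K V] [FiniteDimensional K U]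
    (f : V →ₗ[K] U) (g : U →ₗ[K] W) :
    finrank K (LinearMap.ker (g ∘ₗ f)) ≤ finrank K (LinearMap.ker f) + finrank K (LinearMap.ker g) := by
  let f' : LinearMap.ker (g ∘ₗ f) →ₗ[K] LinearMap.ker g :=
    f.restrict (fun x hx => by simpa using hx)
  have h := LinearMap.finrank_range_add_finrank_ker f'
  have hr : finrank K (LinearMap.range f') ≤ finrank K (LinearMap.ker g) := Submodule.finrank_le _
  have hk : finrank K (LinearMap.ker f') ≤ finrank K (LinearMap.ker f) := by
    let ι : LinearMap.ker f' →ₗ[K] LinearMap.ker f :=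
      LinearMap.codRestrict (LinearMap.ker f)
        ((LinearMap.ker (g ∘ₗ f)).subtype ∘ₗ (LinearMap.ker f').subtype) (fun w => by
          have h0 : f' (w : LinearMap.ker (g ∘ₗ f)) = 0 := w.2
          have := congrArg Subtype.val h0
          exact this)
    have hι : Function.Injective ι := by
      intro a b hab
      have := congrArg Subtype.val hab
      exact Subtype.ext (Subtype.ext this)
    exact LinearMap.finrank_le_finrank_of_injective hι
  omega

/-- The linear-algebra core of the genus inequality. -/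
theorem cs_linalg [FiniteDimensional K V] (A B Q : V →ₗ[K] V) :
    finrank K (LinearMap.ker (B + Q ∘ₗ A)) +
        finrank K ((LinearMap.range B ⊔ (LinearMap.range A).map Q : Submodule K V))
      ≤ finrank K (LinearMap.range A) + finrank K (LinearMap.range B) +
        finrank K ((LinearMap.ker A ⊓ LinearMap.ker B : Submodule K V)) := by
  let Ψ : (LinearMap.range A × LinearMap.range B) →ₗ[K] V :=
    LinearMap.coprod (Q ∘ₗ (LinearMap.range A).subtype) (LinearMap.range B).subtype
  let Φ : V →ₗ[K] (LinearMap.range A × LinearMap.range B) :=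
    LinearMap.prod A.rangeRestrict B.rangeRestrict
  have hΨΦ : Ψ ∘ₗ Φ = B + Q ∘ₗ A := by
    ext v
    simp [Ψ, Φ, add_comm]
  have hrange : LinearMap.range Ψ = LinearMap.range B ⊔ (LinearMap.range A).map Q := by
    simp only [Ψ]
    rw [LinearMap.range_coprod, LinearMap.range_comp, Submodule.range_subtype,
      Submodule.range_subtype, sup_comm]
  have hker : LinearMap.ker Φ = LinearMap.ker A ⊓ LinearMap.ker B := by
    simp only [Φ]
    rw [LinearMap.ker_prod, LinearMap.ker_rangeRestrict, LinearMap.ker_rangeRestrict]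
  have h1 := LinearMap.finrank_range_add_finrank_ker Ψ
  rw [Module.finrank_prod] at h1
  have h2 := cs_finrank_ker_comp_le Φ Ψ
  rw [hΨΦ, hker] at h2
  rw [hrange] at h1
  omega

end linalg

/-- **Genus inequality** for a transitive pair of permutations. -/
theorem cs_card_orbits_le [Nonempty X] (α β : Equiv.Perm X)
    (hT : ∀ x y : X, ∃ g ∈ Subgroup.closure ({α, β} : Set (Equiv.Perm X)), g x = y) :
    cs_z α + cs_z β + cs_z (α * β) ≤ Fintype.card X + 2 := by
  obtain ⟨x₀⟩ := (inferInstance : Nonempty X)
  have hC : cs_A ℚ (α * β) = cs_A ℚ β + LinearMap.funLeft ℚ ℚ β ∘ₗ cs_A ℚ α := by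
    ext f x
    simp only [cs_A_apply, LinearMap.add_apply, LinearMap.comp_apply, Pi.add_apply,
      LinearMap.funLeft_apply, Equiv.Perm.mul_apply]
    ring
  have hmain := cs_linalg (cs_A ℚ α) (cs_A ℚ β) (LinearMap.funLeft ℚ ℚ β)
  rw [← hC, cs_finrank_ker_A ℚ] at hmain
  -- `dim (ker A ⊓ ker B) ≤ 1`
  have h2 : finrank ℚ ((LinearMap.ker (cs_A ℚ α) ⊓ LinearMap.ker (cs_A ℚ β) : Submodule ℚ (X → ℚ))) ≤ 1 := by
    let e : (LinearMap.ker (cs_A ℚ α) ⊓ LinearMap.ker (cs_A ℚ β) : Submodule ℚ (X → ℚ)) →ₗ[ℚ] ℚ :=
      (LinearMap.proj x₀ : (X → ℚ) →ₗ[ℚ] ℚ) ∘ₗ Submodule.subtype _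
    have he : Function.Injective e := by
      rw [injective_iff_map_eq_zero]
      intro w hw
      have hw0 : (w : X → ℚ) x₀ = 0 := hw
      have hconst := cs_const_of_invariant hT (w : X → ℚ)
        (cs_mem_ker_A_iff_stab.mp w.2.1) (cs_mem_ker_A_iff_stab.mp w.2.2)
      apply Subtype.ext
      ext x
      rw [hconst x x₀, hw0]
      rfl
    have := LinearMap.finrank_le_finrank_of_injective he
    rwa [Module.finrank_self] at this
  -- `n ≤ dim W + 1`
  have h3 : Fintype.card X ≤ finrank ℚ ((LinearMap.range (cs_A ℚ β) ⊔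
      (LinearMap.range (cs_A ℚ α)).map (LinearMap.funLeft ℚ ℚ β) : Submodule ℚ (X → ℚ))) + 1 := by
    set Wsub : Submodule ℚ (X → ℚ) := LinearMap.range (cs_A ℚ β) ⊔
      (LinearMap.range (cs_A ℚ α)).map (LinearMap.funLeft ℚ ℚ β) with hWdef
    have hW := Subspace.finrank_add_finrank_dualAnnihilator_eq Wsub
    rw [Module.finrank_fintype_fun_eq_card] at hW
    have hk : finrank ℚ Wsub.dualAnnihilator ≤ 1 := by
      let e : Wsub.dualAnnihilator →ₗ[ℚ] ℚ :=
        (Module.Dual.eval ℚ (X → ℚ) (Pi.single x₀ 1)) ∘ₗ Wsub.dualAnnihilator.subtype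
      have he : Function.Injective e := by
        rw [injective_iff_map_eq_zero]
        intro ℓ hℓ
        have hℓ0 : (ℓ : Module.Dual ℚ (X → ℚ)) (Pi.single x₀ 1) = 0 := hℓ
        have hann : ∀ w ∈ Wsub, (ℓ : Module.Dual ℚ (X → ℚ)) w = 0 :=
          (Submodule.mem_dualAnnihilator _).mp ℓ.2
        set h : X → ℚ := fun x => (ℓ : Module.Dual ℚ (X → ℚ)) (Pi.single x 1) with hh
        have hβ' : β⁻¹ ∈ cs_stab h := by
          intro x
          have hmem : cs_A ℚ β (Pi.single x 1) ∈ Wsub :=
            Submodule.mem_sup_left (LinearMap.mem_range_self _ _)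
          have := hann _ hmem
          rw [cs_A_single ℚ, map_sub] at this
          simp only [hh]
          linarith
        have hα' : α⁻¹ ∈ cs_stab h := by
          intro x
          have hmem : LinearMap.funLeft ℚ ℚ β (cs_A ℚ α (Pi.single x 1)) ∈ Wsub :=
            Submodule.mem_sup_right (Submodule.mem_map_of_mem (LinearMap.mem_range_self _ _))
          have := hann _ hmem
          rw [cs_A_single ℚ, map_sub, cs_funLeft_single ℚ, cs_funLeft_single ℚ, map_sub] at this
          have e1 := hβ' x
          have e2 := hβ' (α⁻¹ x)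
          simp only [hh] at e1 e2 ⊢
          linarith
        have hα : α ∈ cs_stab h := by simpa using (cs_stab h).inv_mem hα'
        have hβ : β ∈ cs_stab h := by simpa using (cs_stab h).inv_mem hβ'
        have hconst := cs_const_of_invariant hT h hα hβ
        apply Subtype.ext
        apply LinearMap.pi_ext
        intro i x
        have : (Pi.single i x : X → ℚ) = x • Pi.single i (1 : ℚ) := by
          rw [← Pi.single_smul, smul_eq_mul, mul_one]
        rw [this, map_smul, map_smul]
        have hi : (ℓ : Module.Dual ℚ (X → ℚ)) (Pi.single i 1) = 0 := by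
          have := hconst i x₀
          simp only [hh] at this
          rw [this, hℓ0]
        rw [hi]
        simp
      have := LinearMap.finrank_le_finrank_of_injective he
      rwa [Module.finrank_self] at this
    omega
  have hA := cs_finrank_range_A ℚ α
  have hB := cs_finrank_range_A ℚ β
  omega

end Fermat.Agent.S24.Comb
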