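/-
S24 helper library (helper3): E2 = "genus ≥ 0" (Scott / Ree / Jacques) for the triple
`(S T, S, T)` acting on `Q N = SL(2, ℤ) ⧸ Γ₀(N)`:
`#orb⟨S T⟩ + #orb⟨S⟩ + #orb⟨T⟩ ≤ #Q + 2`.
-/
import Mathlib
import Fermat.Agent.S24.Comb.Constellation
import Fermat.Agent.S24.Comb.Parity

set_option autoImplicit false

namespace Fermat.Agent.S24.Comb

open MulAction

section Action

variable {G X : Type*} [Group G] [MulAction G X]

/-- Group-action version of the genus inequality: if `a, b` generate `G` and `G` acts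
transitively on the finite set `X`, then
`#orb⟨a⟩ + #orb⟨b⟩ + #orb⟨a b⟩ ≤ #X + 2`. -/
theorem cs_card_orbits_le_of_action [Finite X] [Nonempty X] [IsPretransitive G X] (a b : G)
    (hab : Subgroup.closure ({a, b} : Set G) = ⊤) :
    Nat.card (orbitRel.Quotient (Subgroup.zpowers a) X)
      + Nat.card (orbitRel.Quotient (Subgroup.zpowers b) X)
      + Nat.card (orbitRel.Quotient (Subgroup.zpowers (a * b)) X) ≤ Nat.card X + 2 := by
  classical
  have : Fintype X := Fintype.ofFinite X
  have hT : ∀ x y : X, ∃ g ∈ Subgroup.closure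
      ({(MulAction.toPerm a : Equiv.Perm X), MulAction.toPerm b} : Set (Equiv.Perm X)), g x = y := by
    intro x y
    obtain ⟨g, rfl⟩ := MulAction.exists_smul_eq G x y
    refine ⟨MulAction.toPerm g, ?_, rfl⟩
    have hg : g ∈ Subgroup.closure ({a, b} : Set G) := by rw [hab]; exact Subgroup.mem_top g
    have himg : (MulAction.toPermHom G X) g ∈
        (Subgroup.closure ({a, b} : Set G)).map (MulAction.toPermHom G X) :=
      Subgroup.mem_map_of_mem _ hg
    rw [MonoidHom.map_closure] at himg
    have hset : (MulAction.toPermHom G X) '' ({a, b} : Set G)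
        = ({(MulAction.toPerm a : Equiv.Perm X), MulAction.toPerm b} : Set (Equiv.Perm X)) := by
      rw [Set.image_pair]
      rfl
    rw [hset] at himg
    exact himg
  have h := cs_card_orbits_le (MulAction.toPerm a : Equiv.Perm X) (MulAction.toPerm b) hT
  have hmul : (MulAction.toPerm a : Equiv.Perm X) * MulAction.toPerm b = MulAction.toPerm (a * b) :=
    (map_mul (MulAction.toPermHom G X) a b).symm
  rw [hmul] at h
  simp only [cs_z] at h
  rw [card_orbits_toPerm, card_orbits_toPerm, card_orbits_toPerm, ← Nat.card_eq_fintype_card] at h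
  exact h

end Action

open ModularGroup CongruenceSubgroup
open scoped MatrixGroups

/-- **E2.** The genus of `X₀(N)` computed combinatorially is non-negative:
`#orb⟨S T⟩ + #orb⟨S⟩ + #orb⟨T⟩ ≤ #Q + 2`. -/
theorem orbits_le (N : ℕ) [NeZero N] :
    Nat.card (orbitRel.Quotient (Subgroup.zpowers (S * T)) (Q N))
      + Nat.card (orbitRel.Quotient (Subgroup.zpowers S) (Q N))
      + Nat.card (orbitRel.Quotient (Subgroup.zpowers T) (Q N)) ≤ Nat.card (Q N) + 2 := by
  have h : Nat.card (orbitRel.Quotient (Subgroup.zpowers S) (Q N))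
      + Nat.card (orbitRel.Quotient (Subgroup.zpowers T) (Q N))
      + Nat.card (orbitRel.Quotient (Subgroup.zpowers (S * T)) (Q N)) ≤ Nat.card (Q N) + 2 :=
    cs_card_orbits_le_of_action (G := SL(2, ℤ)) (X := Q N) S T
      SpecialLinearGroup.SL2Z_generators
  omega

/-- `orbits_le` in `ℤ`, in the shape of `even_total`. -/
theorem orbits_le_int (N : ℕ) [NeZero N] :
    (-2 : ℤ) ≤ (Nat.card (Q N) : ℤ)
      - Nat.card (orbitRel.Quotient (Subgroup.zpowers (S * T)) (Q N))
      - Nat.card (orbitRel.Quotient (Subgroup.zpowers S) (Q N))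
      - Nat.card (orbitRel.Quotient (Subgroup.zpowers T) (Q N)) := by
  have h := orbits_le N
  omega

/-- The Hurwitz count is twice a natural number minus two: there is `g : ℕ` with
`#Q - o_{ST} - o_S - o_T = 2 g - 2`. -/
theorem exists_genus_nat (N : ℕ) [NeZero N] :
    ∃ g : ℕ, (Nat.card (Q N) : ℤ)
      - Nat.card (orbitRel.Quotient (Subgroup.zpowers (S * T)) (Q N))
      - Nat.card (orbitRel.Quotient (Subgroup.zpowers S) (Q N))
      - Nat.card (orbitRel.Quotient (Subgroup.zpowers T) (Q N)) = 2 * (g : ℤ) - 2 := by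
  obtain ⟨r, hr⟩ := even_total N
  have h := orbits_le_int N
  refine ⟨(r + 1).toNat, ?_⟩
  have : ((r + 1).toNat : ℤ) = r + 1 := Int.toNat_of_nonneg (by omega)
  rw [this, hr]
  ring

end Fermat.Agent.S24.Comb
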